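import Mathlib

/-!
# S56, wall FLAT, leaf ROOT, step R1: the Eisenstein perturbation map in a valued field

`Ω` a field with a valuation `v`, `B' ⊆ Ω` a subring of integral elements whose nonzero elements
have valuation in `v(π) ^ ℕ` ("unramified"), `ϖ` with `v(ϖ) ^ e = v(π) < 1`.

* `EisPres.val_sum_le_iff`: `v(∑_{i<e} a_i ϖ^i) ≤ g ↔ ∀ i, v(a_i ϖ^i) ≤ g` for `a_i ∈ B'`
  (the valuations of the nonzero terms are pairwise distinct);
* `EisPres.eq_zero_of_sum_eq_zero`: uniqueness of the expansion;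
* `val_root_pow`: a root of `G + c X^j` (`G` Eisenstein-like) has valuation `v(π)^(1/e)`;
* `eta`: the map `∑ a_i ϖ^i ↦ ∑ a_i ϖ'^i`; `EisPres.eta_add`, `eta_mul`, `eta_of_mem`, `val_eta`.
-/

set_option autoImplicit false
set_option linter.unusedSectionVars false

namespace Fermat.Agent.S56.H116.Root

open Polynomial

variable {Ω : Type*} [Field Ω] {Γ₀ : Type*} [LinearOrderedCommGroupWithZero Γ₀]
  (v : Valuation Ω Γ₀)

/-- `B'` is an unramified subring of integers with "uniformizer" `π`, and `ϖ` is an element with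
`v(ϖ) ^ e = v(π)`. -/
structure EisPres (B' : Subring Ω) (π : Ω) (e : ℕ) (ϖ : Ω) : Prop where
  int : ∀ b ∈ B', v b ≤ 1
  val : ∀ b ∈ B', b ≠ 0 → ∃ n : ℕ, v b = v π ^ n
  vpow : v ϖ ^ e = v π
  lt_one : v π < 1
  ne_zero : v π ≠ 0
  epos : 0 < e

namespace EisPres

variable {v} {B' : Subring Ω} {π : Ω} {e : ℕ} {ϖ : Ω} (h : EisPres v B' π e ϖ)
include h

theorem vϖ_ne_zero : v ϖ ≠ 0 := by
  intro h0
  have := h.vpow
  rw [h0, zero_pow h.epos.ne'] at this
  exact h.ne_zero this.symm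

theorem vϖ_pos : 0 < v ϖ := zero_lt_iff.mpr h.vϖ_ne_zero

theorem vϖ_lt_one : v ϖ < 1 := by
  by_contra hcon
  have h1 : 1 ≤ v ϖ := not_lt.mp hcon
  have h2 : 1 ≤ v ϖ ^ e := one_le_pow₀ h1
  rw [h.vpow] at h2
  exact absurd h.lt_one (not_lt.mpr h2)

theorem vϖ_le_one : v ϖ ≤ 1 := h.vϖ_lt_one.le

theorem pow_injective : Function.Injective (fun n : ℕ => v ϖ ^ n) :=
  (pow_right_strictAnti₀ h.vϖ_pos h.vϖ_lt_one).injective

/-- The valuation of a nonzero term `b ϖ^i`. -/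
theorem val_term {b : Ω} (hb : b ∈ B') (hb0 : b ≠ 0) (i : ℕ) :
    ∃ n : ℕ, v (b * ϖ ^ i) = v ϖ ^ (e * n + i) := by
  obtain ⟨n, hn⟩ := h.val b hb hb0
  refine ⟨n, ?_⟩
  rw [map_mul, map_pow, hn, ← h.vpow, ← pow_mul, ← pow_add]

/-- Nonzero terms of different degrees `< e` have different valuations. -/
theorem val_term_ne {b b' : Ω} (hb : b ∈ B') (hb0 : b ≠ 0) (hb' : b' ∈ B') (hb0' : b' ≠ 0)
    {i i' : ℕ} (hi : i < e) (hi' : i' < e) (hne : i ≠ i') :
    v (b * ϖ ^ i) ≠ v (b' * ϖ ^ i') := by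
  obtain ⟨n, hn⟩ := h.val_term hb hb0 i
  obtain ⟨n', hn'⟩ := h.val_term hb' hb0' i'
  rw [hn, hn']
  intro heq
  have h1 : e * n + i = e * n' + i' := h.pow_injective heq
  apply hne
  have h2 : (e * n + i) % e = (e * n' + i') % e := by rw [h1]
  rwa [Nat.mul_add_mod, Nat.mul_add_mod, Nat.mod_eq_of_lt hi, Nat.mod_eq_of_lt hi'] at h2

theorem ϖ_ne_zero : ϖ ≠ 0 := fun h0 => h.vϖ_ne_zero (by rw [h0, map_zero])

/-- **Valuation of an expansion**: `v(∑_{i<e} a_i ϖ^i) ≤ g` iff every term is `≤ g`. -/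
theorem val_sum_le_iff (a : ℕ → Ω) (ha : ∀ i, a i ∈ B') (g : Γ₀) :
    v (∑ i ∈ Finset.range e, a i * ϖ ^ i) ≤ g ↔ ∀ i < e, v (a i * ϖ ^ i) ≤ g := by
  classical
  constructor
  · intro hsum
    obtain ⟨i₀, hi₀, hmax⟩ := Finset.exists_max_image (Finset.range e)
      (fun i => v (a i * ϖ ^ i)) ⟨0, Finset.mem_range.mpr h.epos⟩
    by_cases hM : v (a i₀ * ϖ ^ i₀) = 0
    · intro i hi
      have := hmax i (Finset.mem_range.mpr hi)
      rw [hM] at this
      exact this.trans zero_le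
    · have hai₀ : a i₀ ≠ 0 := fun h0 => hM (by rw [h0, zero_mul, map_zero])
      have hlt : ∀ i ∈ Finset.range e \ {i₀}, v (a i * ϖ ^ i) < v (a i₀ * ϖ ^ i₀) := by
        intro i hi
        rw [Finset.mem_sdiff, Finset.mem_singleton] at hi
        by_cases hai : a i = 0
        · rw [hai, zero_mul, map_zero]
          exact zero_lt_iff.mpr hM
        · exact lt_of_le_of_ne (hmax i hi.1) (h.val_term_ne (ha i) hai (ha i₀) hai₀
            (Finset.mem_range.mp hi.1) (Finset.mem_range.mp hi₀) hi.2)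
      have heq := v.map_sum_eq_of_lt hi₀ hlt
      intro i hi
      exact (hmax i (Finset.mem_range.mpr hi)).trans (heq ▸ hsum)
  · intro hterm
    exact v.map_sum_le fun i hi => hterm i (Finset.mem_range.mp hi)

/-- Uniqueness of the expansion. -/
theorem eq_zero_of_sum_eq_zero (a : ℕ → Ω) (ha : ∀ i, a i ∈ B')
    (hsum : ∑ i ∈ Finset.range e, a i * ϖ ^ i = 0) (i : ℕ) (hi : i < e) : a i = 0 := by
  have h1 := (h.val_sum_le_iff a ha 0).mp (by rw [hsum, map_zero]) i hi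
  have h2 : v (a i * ϖ ^ i) = 0 := le_antisymm h1 zero_le
  rw [map_eq_zero] at h2
  exact (mul_eq_zero.mp h2).resolve_right (pow_ne_zero _ h.ϖ_ne_zero)

/-- Expansions are integral. -/
theorem val_sum_le_one (a : ℕ → Ω) (ha : ∀ i, a i ∈ B') :
    v (∑ i ∈ Finset.range e, a i * ϖ ^ i) ≤ 1 := by
  rw [h.val_sum_le_iff a ha]
  intro i _
  rw [map_mul, map_pow]
  exact mul_le_one' (h.int _ (ha i)) (pow_le_one₀ zero_le h.vϖ_le_one)

/-- Another element of the same valuation gives another presentation. -/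
theorem of_val_eq {ϖ' : Ω} (hv : v ϖ' = v ϖ) : EisPres v B' π e ϖ' where
  int := h.int
  val := h.val
  vpow := by rw [hv, h.vpow]
  lt_one := h.lt_one
  ne_zero := h.ne_zero
  epos := h.epos

/-- The valuation of an expansion depends only on the valuation of `ϖ`. -/
theorem val_sum_eq {ϖ' : Ω} (hv : v ϖ' = v ϖ) (a : ℕ → Ω) (ha : ∀ i, a i ∈ B') :
    v (∑ i ∈ Finset.range e, a i * ϖ' ^ i) = v (∑ i ∈ Finset.range e, a i * ϖ ^ i) := by
  have h' := h.of_val_eq hv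
  have key : ∀ g, v (∑ i ∈ Finset.range e, a i * ϖ' ^ i) ≤ g ↔
      v (∑ i ∈ Finset.range e, a i * ϖ ^ i) ≤ g := by
    intro g
    rw [h.val_sum_le_iff a ha, h'.val_sum_le_iff a ha]
    simp only [map_mul, map_pow, hv]
  exact le_antisymm ((key _).mpr le_rfl) ((key _).mp le_rfl)

end EisPres

section ValRoot


open Polynomial

variable {Ω : Type*} [Field Ω] {Γ₀ : Type*} [LinearOrderedCommGroupWithZero Γ₀]
  {v : Valuation Ω Γ₀}

/-- A root of an Eisenstein-type polynomial `G + c X^j` (`v(c) ≤ v(π)`, `0 < j < e`) has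
valuation `v(π)^(1/e)`. -/
theorem val_root_pow {π : Ω} {e : ℕ} {G : Polynomial Ω} (hm : G.Monic) (hdeg : G.natDegree = e)
    (hc : ∀ i < e, v (G.coeff i) ≤ v π) (hc0 : v (G.coeff 0) = v π) (hlt : v π < 1)
    (hne : v π ≠ 0) {j : ℕ} (hj0 : 0 < j) (hje : j < e) {c : Ω} (hcv : v c ≤ v π)
    {z : Ω} (hroot : G.eval z + c * z ^ j = 0) : v z ^ e = v π := by
  have he : 0 < e := lt_trans hj0 hje
  have hπpos : 0 < v π := zero_lt_iff.mpr hne
  -- split off the leading term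
  have hsplit : G.eval z = ∑ i ∈ Finset.range e, G.coeff i * z ^ i + z ^ e := by
    rw [Polynomial.eval_eq_sum_range, hdeg, Finset.sum_range_succ]
    congr 1
    have : G.coeff e = 1 := by rw [← hdeg]; exact hm.coeff_natDegree
    rw [this, one_mul]
  have hz : z ^ e = -(∑ i ∈ Finset.range e, G.coeff i * z ^ i + c * z ^ j) := by
    rw [hsplit] at hroot
    linear_combination hroot
  -- step 1 : `v z ≤ 1`
  have h1 : v z ≤ 1 := by
    by_contra hcon
    have hgt : 1 < v z := not_le.mp hcon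
    have hpos : 0 < v z ^ e := pow_pos (lt_trans zero_lt_one hgt) e
    have hterm : ∀ i ≤ e, ∀ a : Ω, v a ≤ v π → v (a * z ^ i) < v z ^ e := by
      intro i hi a ha
      rw [map_mul, map_pow]
      calc v a * v z ^ i ≤ v π * v z ^ e :=
            mul_le_mul' ha (pow_le_pow_right₀ hgt.le hi)
        _ < 1 * v z ^ e := by
            exact mul_lt_mul_of_pos_right hlt hpos
        _ = v z ^ e := one_mul _
    have hsum : v (∑ i ∈ Finset.range e, G.coeff i * z ^ i + c * z ^ j) < v z ^ e := by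
      apply v.map_add_lt
      · exact v.map_sum_lt hpos.ne' fun i hi =>
          hterm i (Finset.mem_range.mp hi).le _ (hc i (Finset.mem_range.mp hi))
      · exact hterm j hje.le c hcv
    have := congrArg v hz
    rw [Valuation.map_neg, map_pow] at this
    rw [← this] at hsum
    exact lt_irrefl _ hsum
  -- step 2 : `v z < 1`
  have hle : v z ^ e ≤ v π := by
    have := congrArg v hz
    rw [Valuation.map_neg, map_pow] at this
    rw [this]
    apply v.map_add_le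
    · exact v.map_sum_le fun i hi => by
        rw [map_mul, map_pow]
        calc v (G.coeff i) * v z ^ i ≤ v π * 1 :=
              mul_le_mul' (hc i (Finset.mem_range.mp hi)) (pow_le_one₀ zero_le h1)
          _ = v π := mul_one _
    · rw [map_mul, map_pow]
      calc v c * v z ^ j ≤ v π * 1 := mul_le_mul' hcv (pow_le_one₀ zero_le h1)
        _ = v π := mul_one _
  have h2 : v z < 1 := by
    rcases lt_or_eq_of_le h1 with h | h
    · exact h
    · exfalso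
      rw [h, one_pow] at hle
      exact absurd hlt (not_lt.mpr hle)
  -- step 3 : the constant term dominates
  have hsmall : ∀ i, 0 < i → ∀ a : Ω, v a ≤ v π → v (a * z ^ i) < v π := by
    intro i hi a ha
    rw [map_mul, map_pow]
    calc v a * v z ^ i ≤ v π * v z ^ i := mul_le_mul' ha le_rfl
      _ ≤ v π * v z := by
          apply mul_le_mul' le_rfl
          calc v z ^ i ≤ v z ^ 1 := pow_le_pow_of_le_one zero_le h1 hi
            _ = v z := pow_one _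
      _ < v π * 1 := by
          exact mul_lt_mul_of_pos_left h2 hπpos
      _ = v π := mul_one _
  obtain ⟨e', rfl⟩ : ∃ e', e = e' + 1 := ⟨e - 1, by omega⟩
  have hsum' : ∑ i ∈ Finset.range (e' + 1), G.coeff i * z ^ i =
      ∑ i ∈ Finset.range e', G.coeff (i + 1) * z ^ (i + 1) + G.coeff 0 := by
    rw [Finset.sum_range_succ', pow_zero, mul_one]
  have := congrArg v hz
  rw [Valuation.map_neg, map_pow, hsum'] at this
  rw [this]
  have hrest : v (∑ i ∈ Finset.range e', G.coeff (i + 1) * z ^ (i + 1) + c * z ^ j) < v π := by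
    apply v.map_add_lt
    · exact v.map_sum_lt hne fun i hi =>
        hsmall (i + 1) (Nat.succ_pos i) _ (hc (i + 1) (by
          have := Finset.mem_range.mp hi; omega))
    · exact hsmall j hj0 c hcv
  have e1 : ∑ i ∈ Finset.range e', G.coeff (i + 1) * z ^ (i + 1) + G.coeff 0 + c * z ^ j =
      G.coeff 0 + (∑ i ∈ Finset.range e', G.coeff (i + 1) * z ^ (i + 1) + c * z ^ j) := by ring
  rw [e1, v.map_add_eq_of_lt_left (by rw [hc0]; exact hrest), hc0]


end ValRoot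

section EtaSec


open Polynomial

variable {K : Type*} [Field K] {Γ₀ : Type*} [LinearOrderedCommGroupWithZero Γ₀]
  {v : Valuation K Γ₀}

section Eta

variable (B' : Subring K)

/-- Evaluation of polynomials over the subring `B'` at `z`. -/
def ev (z : K) : Polynomial B' →+* K := Polynomial.eval₂RingHom B'.subtype z

theorem ev_apply (z : K) (f : Polynomial B') : ev B' z f = f.eval₂ B'.subtype z := rfl

theorem ev_C (z : K) (b : B') : ev B' z (C b) = (b : K) := by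
  rw [ev_apply, eval₂_C]; rfl

theorem ev_X (z : K) : ev B' z X = z := by
  rw [ev_apply, eval₂_X]

theorem ev_eq_sum (z : K) {e : ℕ} (r : Polynomial B') (hr : r.natDegree < e) :
    ev B' z r = ∑ i ∈ Finset.range e, ((r.coeff i : B') : K) * z ^ i := by
  rw [ev_apply, Polynomial.eval₂_eq_sum_range' _ hr]
  rfl

theorem val_ev_le_one {z : K} (hB : ∀ b ∈ B', v b ≤ 1) (hz : v z ≤ 1) (f : Polynomial B') :
    v (ev B' z f) ≤ 1 := by
  rw [ev_apply, Polynomial.eval₂_eq_sum_range]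
  refine v.map_sum_le fun i _ => ?_
  rw [map_mul, map_pow]
  exact mul_le_one' (hB _ (SetLike.coe_mem _)) (pow_le_one₀ zero_le hz)

variable {B'} {π : K} {e : ℕ} {ϖ ϖ' : K}

theorem EisPres.ev_eq_zero (h : EisPres v B' π e ϖ) (r : Polynomial B') (hr : r.natDegree < e)
    (h0 : ev B' ϖ r = 0) : r = 0 := by
  rw [ev_eq_sum B' ϖ r hr] at h0
  apply Polynomial.ext
  intro i
  rw [coeff_zero]
  by_cases hi : i < e
  · have := h.eq_zero_of_sum_eq_zero (fun i => ((r.coeff i : B') : K))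
      (fun i => SetLike.coe_mem _) h0 i hi
    exact Subtype.ext (this.trans (Subring.coe_zero B').symm)
  · exact Polynomial.coeff_eq_zero_of_natDegree_lt (lt_of_lt_of_le hr (not_lt.mp hi))

theorem EisPres.val_ev_eq (h : EisPres v B' π e ϖ) (hv' : v ϖ' = v ϖ) (r : Polynomial B')
    (hr : r.natDegree < e) : v (ev B' ϖ' r) = v (ev B' ϖ r) := by
  rw [ev_eq_sum B' ϖ' r hr, ev_eq_sum B' ϖ r hr]
  exact h.val_sum_eq hv' _ (fun i => SetLike.coe_mem _)

variable (B' ϖ ϖ') (G₀ : Polynomial B')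

/-- The perturbation map `η : B'[ϖ] → B'[ϖ']`, `∑ a_i ϖ^i ↦ ∑ a_i ϖ'^i` (extended by `0`). -/
noncomputable def eta (x : K) : K :=
  open Classical in
  if hx : ∃ f : Polynomial B', ev B' ϖ f = x then ev B' ϖ' (hx.choose %ₘ G₀) else 0

variable {B' ϖ ϖ' G₀}

theorem natDegree_mod_lt (hm : G₀.Monic) (hdeg : G₀.natDegree = e) (he : 0 < e)
    (f : Polynomial B') : (f %ₘ G₀).natDegree < e := by
  rw [← hdeg]
  apply Polynomial.natDegree_modByMonic_lt f hm
  intro h1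
  rw [h1, natDegree_one] at hdeg
  omega

theorem ev_mod (hroot : ev B' ϖ G₀ = 0) (f : Polynomial B') :
    ev B' ϖ (f %ₘ G₀) = ev B' ϖ f := by
  have := Polynomial.modByMonic_add_div f G₀
  have e1 := congrArg (ev B' ϖ) this
  rw [map_add, map_mul, hroot, zero_mul, add_zero] at e1
  exact e1

theorem EisPres.mod_eq_of_ev_eq (h : EisPres v B' π e ϖ) (hm : G₀.Monic)
    (hdeg : G₀.natDegree = e) (hroot : ev B' ϖ G₀ = 0) {f f' : Polynomial B'}
    (hff : ev B' ϖ f = ev B' ϖ f') : f %ₘ G₀ = f' %ₘ G₀ := by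
  rw [← sub_eq_zero]
  apply h.ev_eq_zero
  · refine lt_of_le_of_lt (Polynomial.natDegree_sub_le _ _) (max_lt ?_ ?_)
    · exact natDegree_mod_lt hm hdeg h.epos f
    · exact natDegree_mod_lt hm hdeg h.epos f'
  · rw [map_sub, ev_mod hroot, ev_mod hroot, hff, sub_self]

theorem EisPres.eta_ev (h : EisPres v B' π e ϖ) (hm : G₀.Monic)
    (hdeg : G₀.natDegree = e) (hroot : ev B' ϖ G₀ = 0) (f : Polynomial B') :
    eta B' ϖ ϖ' G₀ (ev B' ϖ f) = ev B' ϖ' (f %ₘ G₀) := by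
  have hx : ∃ f' : Polynomial B', ev B' ϖ f' = ev B' ϖ f := ⟨f, rfl⟩
  unfold eta
  rw [dif_pos hx]
  rw [h.mod_eq_of_ev_eq hm hdeg hroot hx.choose_spec]

theorem EisPres.eta_add (h : EisPres v B' π e ϖ) (hm : G₀.Monic)
    (hdeg : G₀.natDegree = e) (hroot : ev B' ϖ G₀ = 0) (f g : Polynomial B') :
    eta B' ϖ ϖ' G₀ (ev B' ϖ f + ev B' ϖ g) =
      eta B' ϖ ϖ' G₀ (ev B' ϖ f) + eta B' ϖ ϖ' G₀ (ev B' ϖ g) := by
  rw [← map_add, h.eta_ev hm hdeg hroot, h.eta_ev hm hdeg hroot, h.eta_ev hm hdeg hroot,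
    Polynomial.add_modByMonic, map_add]

theorem EisPres.eta_mul (h : EisPres v B' π e ϖ) (hm : G₀.Monic)
    (hdeg : G₀.natDegree = e) (hroot : ev B' ϖ G₀ = 0) (f g : Polynomial B') :
    ∃ Q : Polynomial B', eta B' ϖ ϖ' G₀ (ev B' ϖ f * ev B' ϖ g) -
      eta B' ϖ ϖ' G₀ (ev B' ϖ f) * eta B' ϖ ϖ' G₀ (ev B' ϖ g) =
      ev B' ϖ' G₀ * ev B' ϖ' Q := by
  rw [← map_mul, h.eta_ev hm hdeg hroot, h.eta_ev hm hdeg hroot, h.eta_ev hm hdeg hroot]
  -- `(f g) % G = ((f % G) (g % G)) % G`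
  have e1 : (f * g) %ₘ G₀ = ((f %ₘ G₀) * (g %ₘ G₀)) %ₘ G₀ := by
    apply h.mod_eq_of_ev_eq hm hdeg hroot
    rw [map_mul, map_mul, ev_mod hroot, ev_mod hroot]
  refine ⟨-(((f %ₘ G₀) * (g %ₘ G₀)) /ₘ G₀), ?_⟩
  have e2 := Polynomial.modByMonic_add_div ((f %ₘ G₀) * (g %ₘ G₀)) G₀
  have e3 := congrArg (ev B' ϖ') e2
  rw [map_add, map_mul, map_mul] at e3
  rw [e1, map_neg]
  linear_combination e3

theorem EisPres.eta_of_mem (h : EisPres v B' π e ϖ) (hm : G₀.Monic)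
    (hdeg : G₀.natDegree = e) (hroot : ev B' ϖ G₀ = 0) {b : K} (hb : b ∈ B') :
    eta B' ϖ ϖ' G₀ b = b := by
  have e1 : b = ev B' ϖ (C ⟨b, hb⟩) := (ev_C B' ϖ ⟨b, hb⟩).symm
  have e2 : (C (⟨b, hb⟩ : B') : Polynomial B') %ₘ G₀ = C ⟨b, hb⟩ := by
    rw [Polynomial.modByMonic_eq_self_iff hm]
    apply lt_of_le_of_lt Polynomial.degree_C_le
    rw [Polynomial.degree_eq_natDegree hm.ne_zero, hdeg]
    exact_mod_cast h.epos
  conv_lhs => rw [e1]
  rw [h.eta_ev hm hdeg hroot, e2, ev_C]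

theorem EisPres.val_eta (h : EisPres v B' π e ϖ) (hv' : v ϖ' = v ϖ) (hm : G₀.Monic)
    (hdeg : G₀.natDegree = e) (hroot : ev B' ϖ G₀ = 0) (f : Polynomial B') :
    v (eta B' ϖ ϖ' G₀ (ev B' ϖ f)) = v (ev B' ϖ f) := by
  rw [h.eta_ev hm hdeg hroot, h.val_ev_eq hv' _ (natDegree_mod_lt hm hdeg h.epos f),
    ev_mod hroot]

end Eta


end EtaSec

section ExistsEta


open Polynomial

variable {K : Type*} [Field K] {Γ₀ : Type*} [LinearOrderedCommGroupWithZero Γ₀]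
  {v : Valuation K Γ₀}

/-- Elements with an expansion are values of polynomials over `B'`. -/
theorem exists_ev_eq_of_expansion (B' : Subring K) (ϖ : K) {e : ℕ} {x : K}
    (hx : ∃ a : Fin e → K, (∀ i, a i ∈ B') ∧ x = ∑ i, a i * ϖ ^ (i : ℕ)) :
    ∃ f : Polynomial B', ev B' ϖ f = x := by
  obtain ⟨a, ha, rfl⟩ := hx
  refine ⟨∑ i : Fin e, C (⟨a i, ha i⟩ : B') * X ^ (i : ℕ), ?_⟩
  rw [map_sum]
  refine Finset.sum_congr rfl fun i _ => ?_
  rw [map_mul, map_pow, ev_C, ev_X]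

/-- **ROOT, step R1.**  The perturbation map `η` attached to an Eisenstein presentation
`T = B'[ϖ]`, `G(ϖ) = 0`, and a root `ϖ'` of `G + π X^j`. -/
theorem exists_eta (B' : Subring K) {π : K} {e : ℕ} {ϖ : K} (h : EisPres v B' π e ϖ)
    {G : Polynomial K} (hm : G.Monic) (hdeg : G.natDegree = e) (hG : ∀ i, G.coeff i ∈ B')
    (hc : ∀ i < e, v (G.coeff i) ≤ v π) (hc0 : v (G.coeff 0) = v π) (hroot : G.eval ϖ = 0)
    {j : ℕ} (hj0 : 0 < j) (hje : j < e) {ϖ' : K} (hroot' : G.eval ϖ' + π * ϖ' ^ j = 0)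
    (T : Set K)
    (hT : ∀ x ∈ T, ∃ a : Fin e → K, (∀ i, a i ∈ B') ∧ x = ∑ i, a i * ϖ ^ (i : ℕ)) :
    v ϖ' = v ϖ ∧ ∃ η : K → K,
      (∀ a ∈ T, v (η a) ≤ 1) ∧
      (∀ a ∈ T, ∀ b ∈ T, η (a + b) = η a + η b) ∧
      (∀ a ∈ T, ∀ b ∈ T, v (η (a * b) - η a * η b) ≤ v π * v ϖ ^ j) ∧
      (∀ b ∈ B', η b = b) ∧
      (∀ a ∈ T, v (η a) = v a) ∧
      (∀ a ∈ T, ∃ f : Polynomial B', η a = ev B' ϖ' f) := by
  have hv' : v ϖ' = v ϖ := by
    have h1 := val_root_pow hm hdeg hc hc0 h.lt_one h.ne_zero hj0 hje le_rfl hroot'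
    have h2 : v ϖ' ^ e = v ϖ ^ e := by rw [h1, h.vpow]
    exact (pow_left_inj h.epos.ne').mp h2
  refine ⟨hv', ?_⟩
  -- lift `G` to `B'`
  have hlift : G ∈ Polynomial.lifts B'.subtype := by
    rw [Polynomial.lifts_iff_coeff_lifts]
    intro n
    exact ⟨⟨G.coeff n, hG n⟩, rfl⟩
  obtain ⟨G₀, hG₀, hdeg₀, hm₀⟩ := Polynomial.lifts_and_natDegree_eq_and_monic hlift hm
  have hdeg₀' : G₀.natDegree = e := hdeg₀.trans hdeg
  have hev : ∀ z, ev B' z G₀ = G.eval z := by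
    intro z
    rw [ev_apply, ← hG₀, Polynomial.eval_map]
  have hroot₀ : ev B' ϖ G₀ = 0 := by rw [hev, hroot]
  have hroot₀' : ev B' ϖ' G₀ = -(π * ϖ' ^ j) := by
    rw [hev]
    linear_combination hroot'
  have hTev : ∀ x ∈ T, ∃ f : Polynomial B', ev B' ϖ f = x := fun x hx =>
    exists_ev_eq_of_expansion B' ϖ (hT x hx)
  have hvϖ' : v ϖ' ≤ 1 := hv' ▸ h.vϖ_le_one
  refine ⟨eta B' ϖ ϖ' G₀, ?_, ?_, ?_, ?_, ?_, ?_⟩
  · intro a ha
    obtain ⟨f, rfl⟩ := hTev a ha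
    rw [h.eta_ev hm₀ hdeg₀' hroot₀]
    exact val_ev_le_one B' h.int hvϖ' _
  · intro a ha b hb
    obtain ⟨f, rfl⟩ := hTev a ha
    obtain ⟨g, rfl⟩ := hTev b hb
    exact h.eta_add hm₀ hdeg₀' hroot₀ f g
  · intro a ha b hb
    obtain ⟨f, rfl⟩ := hTev a ha
    obtain ⟨g, rfl⟩ := hTev b hb
    obtain ⟨Q, hQ⟩ := h.eta_mul (ϖ' := ϖ') hm₀ hdeg₀' hroot₀ f g
    rw [hQ, hroot₀', map_mul, Valuation.map_neg, map_mul, map_pow, hv']
    calc v π * v ϖ ^ j * v (ev B' ϖ' Q) ≤ v π * v ϖ ^ j * 1 :=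
          mul_le_mul' le_rfl (val_ev_le_one B' h.int hvϖ' Q)
      _ = v π * v ϖ ^ j := mul_one _
  · intro b hb
    exact h.eta_of_mem hm₀ hdeg₀' hroot₀ hb
  · intro a ha
    obtain ⟨f, rfl⟩ := hTev a ha
    exact h.val_eta hv' hm₀ hdeg₀' hroot₀ f
  · intro a ha
    obtain ⟨f, rfl⟩ := hTev a ha
    exact ⟨_, h.eta_ev hm₀ hdeg₀' hroot₀ f⟩


end ExistsEta

end Fermat.Agent.S56.H116.Root
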