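import Fermat.Agent.S56.H254.RootR2
import Fermat.Agent.S56.H434.RootGalois
import Fermat.Agent.S56.H116.RootEta

/-!
# S56 / W-FLAT-SS / LocalModel / ROOT: assembly (helper116)

`root_of : FL.RationalityStatement → FL.RootStatement`.

Ingredients:
* R1 (`H116.Root.exists_eta`, `RootEta.lean`): the perturbation map `η : ∑ a_i ϖ^i ↦ ∑ a_i ϖ'^i`
  attached to a root `ϖ'` of `G + p X^j` is additive, multiplicative modulo `p ϖ^j`, isometric and
  the identity on `B'`;
* R2 (`H254.level_of_fixes`): Theorem A for the pair of flat lifts;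
* R3 (`H434.mem_decompositionSubgroup_of_fixes`, `H434.fixes_of_fixes`): Galois theory
  (`G1`: automorphisms fixing the decomposition ring lie in `D_P`; `G2`: degree count).

Sorry-free.
-/

set_option autoImplicit false

open Polynomial

noncomputable section

namespace Fermat.Agent.S56.H116.Root

open Fermat.Agent.S56 Fermat.Agent.S56.H716 Fermat.Agent.S56.FL

local notation "Zloc" => GaloisRep.ratLocalizedAt

/-- An automorphism fixing `B'` pointwise and fixing `z` fixes the values at `z` of the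
polynomials with coefficients in `B'`. -/
theorem apply_ev_of_fixes (B' : Subring Qb) (σ : GQ) (hσ : ∀ b ∈ B', σ b = b) {z : Qb}
    (hz : σ z = z) (f : Polynomial B') : σ (ev B' z f) = ev B' z f := by
  rw [ev_apply]
  have h1 := Polynomial.hom_eval₂ f B'.subtype (σ : Qb →+* Qb) z
  have h2 : ((σ : Qb →+* Qb).comp B'.subtype) = B'.subtype := by
    ext b
    exact hσ b b.2
  rw [h2] at h1
  have h3 : (σ : Qb →+* Qb) z = z := hz
  rw [h3] at h1
  exact h1

/-- Uniqueness of Eisenstein expansions, `Fin e`-indexed form. -/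
theorem EisPres.eq_zero_of_sum_fin_eq_zero {Ω : Type*} [Field Ω] {Γ₀ : Type*}
    [LinearOrderedCommGroupWithZero Γ₀] {v : Valuation Ω Γ₀} {B' : Subring Ω} {π : Ω} {e : ℕ}
    {ϖ : Ω} (h : EisPres v B' π e ϖ) (a : Fin e → Ω) (ha : ∀ i, a i ∈ B')
    (hsum : ∑ i, a i * ϖ ^ (i : ℕ) = 0) (i : Fin e) : a i = 0 := by
  classical
  set a' : ℕ → Ω := fun n => if hn : n < e then a ⟨n, hn⟩ else 0 with ha'
  have ha'mem : ∀ n, a' n ∈ B' := by
    intro n
    by_cases hn : n < e
    · simp only [ha', hn, dif_pos]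
      exact ha _
    · simp only [ha', hn, dif_neg, not_false_eq_true]
      exact B'.zero_mem
  have hsum' : ∑ n ∈ Finset.range e, a' n * ϖ ^ n = 0 := by
    rw [Finset.sum_range]
    rw [← hsum]
    refine Finset.sum_congr rfl fun n _ => ?_
    simp only [ha', n.2, dif_pos, Fin.eta]
  have := h.eq_zero_of_sum_eq_zero a' ha'mem hsum' i i.2
  simpa only [ha', i.2, dif_pos, Fin.eta] using this

/-- **ROOT.**  `RootStatement ⇐ RationalityStatement`. -/
theorem root_of (hRat : RationalityStatement) : RootStatement := by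
  intro k _ _ p _ _ hchar ρbar P hP c₁ c₂ _ _ ρ₁ ρ₂ h₁ h₂ hf₁ hf₂ B' ϖ e G hA hB' hval hϖ hvpow
    hexp hGm hGdeg hGcoef hGval hG0 hroot j _ hj0 hje hejp
  have hp : p.Prime := Fact.out
  have hp0 : (p : Qb) ≠ 0 := by exact_mod_cast hp.ne_zero
  have hvp_lt : P.valuation (p : Qb) < 1 := (ValuationSubring.mem_nonunits_iff (A := P)).mp hP
  have hvp_ne : P.valuation (p : Qb) ≠ 0 := (Valuation.ne_zero_iff _).mpr hp0
  have he0 : 0 < e := hj0.trans hje
  have hE : EisPres P.valuation B' (p : Qb) e ϖ :=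
    { int := fun b hb => (P.valuation_le_one_iff _).mpr (hB' b hb).1
      val := hval
      vpow := hvpow
      lt_one := hvp_lt
      ne_zero := hvp_ne
      epos := he0 }
  -- the perturbed polynomial
  have hdeglt : (C (p : Qb) * X ^ j).degree < G.degree := by
    refine lt_of_le_of_lt (Polynomial.degree_C_mul_X_pow_le j _) ?_
    rw [Polynomial.degree_eq_natDegree hGm.ne_zero, hGdeg]
    exact_mod_cast hje
  have hG'm : (G + C (p : Qb) * X ^ j).Monic := hGm.add_of_left hdeglt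
  have hG'deg : (G + C (p : Qb) * X ^ j).natDegree = e := by
    rw [Polynomial.natDegree_add_eq_left_of_degree_lt hdeglt, hGdeg]
  have hG'coef : ∀ i, (G + C (p : Qb) * X ^ j).coeff i ∈ B' := by
    intro i
    rw [Polynomial.coeff_add, Polynomial.coeff_C_mul_X_pow]
    refine B'.add_mem (hGcoef i) ?_
    split_ifs
    · exact natCast_mem B' p
    · exact B'.zero_mem
  obtain ⟨ϖ', hϖ'⟩ : ∃ z, (G + C (p : Qb) * X ^ j).eval z = 0 := by
    refine IsAlgClosed.exists_root _ ?_
    rw [Polynomial.degree_eq_natDegree hG'm.ne_zero, hG'deg]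
    exact_mod_cast he0.ne'
  have hroot' : G.eval ϖ' + (p : Qb) * ϖ' ^ j = 0 := by
    simpa only [Polynomial.eval_add, Polynomial.eval_mul, Polynomial.eval_C, Polynomial.eval_pow,
      Polynomial.eval_X] using hϖ'
  -- R1
  obtain ⟨hvϖ', η, hη1, hηadd, hηmul, hηB, hηv, hηev⟩ :=
    exists_eta B' hE hGm hGdeg hGcoef hGval hG0 hroot hj0 hje hroot'
      (levelSet ρbar c₁ c₂ P) hexp
  -- the bound `γ ^ (p - 1) < |p|` for `γ = |ϖ| ^ j`
  have hγ : (P.valuation ϖ ^ j) ^ (p - 1) < P.valuation (p : Qb) := by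
    rw [← pow_mul, ← hvpow]
    exact pow_lt_pow_right_of_lt_one₀ hE.vϖ_pos hE.vϖ_lt_one hejp
  have hZ : ∀ r : Zloc p, algebraMap (Zloc p) Qb r ∈ B' := fun r =>
    hA _ (H254.algebraMap_mem_valuationSubring P hP r) (fun τ _ => τ.commutes _)
  -- every automorphism fixing `B'` and `ϖ'` fixes `ϖ`
  have hkey : ∀ σ : GQ, (∀ b ∈ B', σ b = b) → σ ϖ' = ϖ' → σ ϖ = ϖ := by
    intro σ hσB hσϖ'
    have hσD : σ ∈ P.decompositionSubgroup ℚ :=
      H434.mem_decompositionSubgroup_of_fixes P σ (fun x hx hfix => hσB x (hA x hx hfix))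
    have hfix : ∀ a ∈ levelSet ρbar c₁ c₂ P, σ (η a) = η a := by
      intro a ha
      obtain ⟨f, hf⟩ := hηev a ha
      rw [hf]
      exact apply_ev_of_fixes B' σ hσB hσϖ' f
    obtain ⟨h1, h2, h3⟩ := H254.level_of_fixes hRat hchar hP h₁ h₂ hf₁ hf₂
      (P.valuation ϖ ^ j) (pow_ne_zero _ hE.vϖ_ne_zero) hγ η hη1
      (fun a ha b hb => by rw [hηadd a ha b hb, sub_self, map_zero]; exact zero_le)
      hηmul
      (fun r => by rw [hηB _ (hZ r), sub_self, map_zero]; exact zero_le)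
      (fun a ha h => by rw [← hηv a ha]; exact h)
      hσD hfix
    exact hϖ.2 σ hσD h1 h2 h3
  -- R3: degree count
  have hfinal := H434.fixes_of_fixes B' ϖ ϖ' e (G + C (p : Qb) * X ^ j) hG'm hG'deg hG'coef hϖ'
    (fun a ha hsum => hE.eq_zero_of_sum_fin_eq_zero a ha hsum) hkey
  refine ⟨ϖ', ⟨(P.valuation_le_one_iff _).mp (hvϖ' ▸ hE.vϖ_le_one), fun τ hτ h1 h2 h3 => ?_⟩,
    hroot'⟩
  exact hfinal τ (fun b hb => (hB' b hb).2 τ hτ h1 h2 h3) (hϖ.2 τ hτ h1 h2 h3)

end Fermat.Agent.S56.H116.Root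

end
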