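import Mathlib

/-!
# S56, wall FLAT (supersingular case): the abstract `p`-th root lemmas

`R` is a commutative ring with a complete separated filtration `I 0 = ⊤ ⊇ I 1 ⊇ I 2 ⊇ …` by ideals,
`I 1 * I n ≤ I (n + 1)`, and `lam`, `mu ∈ I 1` with `lam ^ (p - 1) = p * mu`
(think of `v(lam) > v(p) / (p - 1)`).  Then

* `CompleteFiltration.eq_one_of_pow_eq_one` (A): `z ≡ 1 mod lam`, `z ^ p = 1` ⟹ `z = 1`
  (if `p` is a non-zero-divisor);
* `CompleteFiltration.exists_pow_eq` (B): `a ≡ 1 mod p * lam` ⟹ `a = c ^ p` with `c ≡ 1 mod lam`.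

These are applied to convolution rings `Hom_O(H, S)` in `LiftConv.lean`.
-/

set_option autoImplicit false

namespace Fermat.Agent.S56.H116

open Finset

variable {R : Type*} [CommRing R]

/-- A complete separated filtration of a commutative ring by ideals. -/
structure CompleteFiltration (I : ℕ → Ideal R) : Prop where
  top : I 0 = ⊤
  anti : ∀ n, I (n + 1) ≤ I n
  mul : ∀ n, I 1 * I n ≤ I (n + 1)
  haus : ∀ x : R, (∀ n, x ∈ I n) → x = 0
  prec : ∀ f : ℕ → R, (∀ n, f (n + 1) - f n ∈ I n) → ∃ L : R, ∀ n, L - f n ∈ I n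

namespace CompleteFiltration

variable {I : ℕ → Ideal R}

theorem pow_mem (hI : CompleteFiltration I) {x : R} (hx : x ∈ I 1) (n : ℕ) : x ^ n ∈ I n := by
  induction n with
  | zero => rw [hI.top]; trivial
  | succ n ih =>
    rw [pow_succ']
    exact hI.mul n (Ideal.mul_mem_mul hx ih)

theorem mul_mem (hI : CompleteFiltration I) {x y : R} (hx : x ∈ I 1) {n : ℕ} (hy : y ∈ I n) :
    x * y ∈ I (n + 1) :=
  hI.mul n (Ideal.mul_mem_mul hx hy)

theorem isUnit_one_add (hI : CompleteFiltration I) {x : R} (hx : x ∈ I 1) : IsUnit (1 + x) := by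
  have hnx : -x ∈ I 1 := (I 1).neg_mem hx
  obtain ⟨L, hL⟩ := hI.prec (fun n => ∑ k ∈ range n, (-x) ^ k) (fun n => by
    rw [sum_range_succ, add_sub_cancel_left]
    exact hI.pow_mem hnx n)
  have key : ∀ n, (1 + x) * ∑ k ∈ range n, (-x) ^ k = 1 - (-x) ^ n := by
    intro n
    have := mul_neg_geom_sum (-x) n
    rw [sub_neg_eq_add] at this
    exact this
  have h1 : (1 + x) * L - 1 = 0 := by
    apply hI.haus
    intro n
    have e : (1 + x) * L - 1 = (1 + x) * (L - ∑ k ∈ range n, (-x) ^ k) - (-x) ^ n := by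
      rw [mul_sub, key n]; ring
    rw [e]
    exact (I n).sub_mem ((I n).mul_mem_left _ (hL n)) (hI.pow_mem hnx n)
  exact IsUnit.of_mul_eq_one L (sub_eq_zero.mp h1)

/-- The polynomial `T₁` with `(1 + lam y) ^ p = 1 + p lam (y + y T₁(y))`. -/
def tOne (p : ℕ) (lam mu y : R) : R :=
  ∑ j ∈ Ico 2 p, ((p.choose j / p : ℕ) : R) * lam ^ (j - 1) * y ^ (j - 1) + mu * y ^ (p - 1)

theorem one_add_mul_pow {p : ℕ} (hp : p.Prime) {lam mu : R} (h : lam ^ (p - 1) = p * mu)
    (y : R) : (1 + lam * y) ^ p = 1 + p * lam * (y + y * tOne p lam mu y) := by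
  have hp2 : 2 ≤ p := hp.two_le
  rw [add_comm 1 (lam * y), add_pow, sum_range_succ, range_eq_Ico,
    sum_eq_sum_Ico_succ_bot (by omega : 0 < p), sum_eq_sum_Ico_succ_bot (by omega : 0 + 1 < p)]
  have hmid : ∀ j ∈ Ico (0 + 1 + 1) p,
      (lam * y) ^ j * 1 ^ (p - j) * (p.choose j : R) =
        p * lam * (y * (((p.choose j / p : ℕ) : R) * lam ^ (j - 1) * y ^ (j - 1))) := by
    intro j hj
    rw [mem_Ico] at hj
    have hdvd : p ∣ p.choose j := hp.dvd_choose_self (by omega) hj.2
    have e1 : (p.choose j : R) = (p : R) * ((p.choose j / p : ℕ) : R) := by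
      rw [← Nat.cast_mul, Nat.mul_div_cancel' hdvd]
    have e2 : lam ^ j = lam ^ (j - 1) * lam := by
      rw [← pow_succ]; congr 1; omega
    have e2' : y ^ j = y ^ (j - 1) * y := by
      rw [← pow_succ]; congr 1; omega
    rw [e1, one_pow, mul_one, mul_pow, e2, e2']
    ring
  rw [sum_congr rfl hmid, ← mul_sum, ← mul_sum]
  have e3 : (lam * y) ^ p = p * lam * (y * (mu * y ^ (p - 1))) := by
    have e2 : lam ^ p = lam ^ (p - 1) * lam := by
      rw [← pow_succ]; congr 1; omega
    have e2' : y ^ p = y ^ (p - 1) * y := by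
      rw [← pow_succ]; congr 1; omega
    rw [mul_pow, e2, e2', h]
    ring
  rw [e3, tOne]
  simp only [pow_zero, Nat.sub_zero, one_pow, Nat.choose_zero_right, Nat.cast_one, mul_one,
    Nat.sub_self, Nat.choose_self, zero_add, pow_one, Nat.choose_one_right]
  ring

theorem tOne_mem {p : ℕ} (J : Ideal R) {lam mu : R} (hlam : lam ∈ J) (hmu : mu ∈ J) (y : R) :
    tOne p lam mu y ∈ J := by
  unfold tOne
  refine J.add_mem (J.sum_mem fun j hj => ?_) (J.mul_mem_right _ hmu)
  rw [mem_Ico] at hj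
  have e2 : j - 1 = (j - 2) + 1 := by omega
  rw [e2, pow_succ]
  apply J.mul_mem_right
  apply J.mul_mem_left
  exact J.mul_mem_left _ hlam

/-- The difference `u T₁(u) - v T₁(v)` is a multiple of `u - v` by an element of `J`. -/
theorem mul_tOne_sub {p : ℕ} (hp : 2 ≤ p) (J : Ideal R) {lam mu : R} (hlam : lam ∈ J)
    (hmu : mu ∈ J) (u v : R) :
    ∃ q ∈ J, u * tOne p lam mu u - v * tOne p lam mu v = (u - v) * q := by
  have hpow : ∀ n : ℕ, ∃ q : R, u ^ n - v ^ n = (u - v) * q := fun n =>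
    sub_dvd_pow_sub_pow u v n
  choose Q hQ using hpow
  refine ⟨∑ j ∈ Ico 2 p, ((p.choose j / p : ℕ) : R) * lam ^ (j - 1) * Q j + mu * Q p, ?_, ?_⟩
  · refine J.add_mem (J.sum_mem fun j hj => ?_) (J.mul_mem_right _ hmu)
    rw [mem_Ico] at hj
    have e2 : j - 1 = (j - 2) + 1 := by omega
    rw [e2, pow_succ]
    apply J.mul_mem_right
    apply J.mul_mem_left
    exact J.mul_mem_left _ hlam
  · unfold tOne
    rw [mul_add, mul_add, mul_add, mul_sum, mul_sum, mul_sum]
    have e1 : ∀ j ∈ Ico 2 p, u * (((p.choose j / p : ℕ) : R) * lam ^ (j - 1) * u ^ (j - 1)) -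
        v * (((p.choose j / p : ℕ) : R) * lam ^ (j - 1) * v ^ (j - 1)) =
        (u - v) * (((p.choose j / p : ℕ) : R) * lam ^ (j - 1) * Q j) := by
      intro j hj
      rw [mem_Ico] at hj
      have e2 : j = (j - 1) + 1 := by omega
      have := hQ j
      conv at this => lhs; rw [e2, pow_succ', pow_succ']
      linear_combination ((p.choose j / p : ℕ) : R) * lam ^ (j - 1) * this
    have e3 : u * (mu * u ^ (p - 1)) - v * (mu * v ^ (p - 1)) = (u - v) * (mu * Q p) := by
      have e2 : p = (p - 1) + 1 := by omega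
      have := hQ p
      conv at this => lhs; rw [e2, pow_succ', pow_succ']
      linear_combination mu * this
    rw [add_sub_add_comm, ← sum_sub_distrib, sum_congr rfl e1, e3]

/-- (A) A `p`-th root of unity congruent to `1` modulo `lam` is `1`. -/
theorem eq_one_of_pow_eq_one (hI : CompleteFiltration I) {p : ℕ} (hp : p.Prime)
    (hpR : ∀ r : R, (p : R) * r = 0 → r = 0) {lam mu : R} (hlam : lam ∈ I 1) (hmu : mu ∈ I 1)
    (h : lam ^ (p - 1) = p * mu) {z : R} (hz : z - 1 ∈ Ideal.span {lam}) (hzp : z ^ p = 1) :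
    z = 1 := by
  obtain ⟨y, hy⟩ := Ideal.mem_span_singleton'.mp hz
  have hz' : z = 1 + lam * y := by rw [mul_comm, hy]; ring
  rw [hz', one_add_mul_pow hp h] at hzp
  have h1 : (p : R) * (lam * y * (1 + tOne p lam mu y)) = 0 := by
    have : (1 : R) + p * lam * (y + y * tOne p lam mu y) - 1 = 0 := by rw [hzp]; ring
    rw [← this]; ring
  have h2 := hpR _ h1
  have hu := hI.isUnit_one_add (tOne_mem (p := p) (I 1) hlam hmu y)
  have h3 : lam * y = 0 := hu.mul_left_eq_zero.mp h2
  rw [hz', h3, add_zero]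

/-- (A') Two `p`-th roots of the same element which are congruent modulo `lam` coincide, if one
of them is a unit. -/
theorem eq_of_pow_eq_pow (hI : CompleteFiltration I) {p : ℕ} (hp : p.Prime)
    (hpR : ∀ r : R, (p : R) * r = 0 → r = 0) {lam mu : R} (hlam : lam ∈ I 1) (hmu : mu ∈ I 1)
    (h : lam ^ (p - 1) = p * mu) {z w : R} (hw : IsUnit w) (hz : z - w ∈ Ideal.span {lam})
    (hzp : z ^ p = w ^ p) : z = w := by
  obtain ⟨w', rfl⟩ := hw
  have h1 : z * (w'⁻¹ : Rˣ) - 1 ∈ Ideal.span {lam} := by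
    have : z * (w'⁻¹ : Rˣ) - 1 = (z - w') * (w'⁻¹ : Rˣ) := by
      rw [sub_mul, Units.mul_inv]
    rw [this]
    exact Ideal.mul_mem_right _ _ hz
  have h2 : (z * (w'⁻¹ : Rˣ)) ^ p = 1 := by
    rw [mul_pow, hzp, ← mul_pow, Units.mul_inv, one_pow]
  have h3 := hI.eq_one_of_pow_eq_one hp hpR hlam hmu h h1 h2
  calc z = z * (w'⁻¹ : Rˣ) * w' := by rw [mul_assoc, Units.inv_mul, mul_one]
    _ = w' := by rw [h3, one_mul]

/-- (B) An element congruent to `1` modulo `p * lam` is the `p`-th power of an element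
congruent to `1` modulo `lam`. -/
theorem exists_pow_eq (hI : CompleteFiltration I) {p : ℕ} (hp : p.Prime) {lam mu : R}
    (hlam : lam ∈ I 1) (hmu : mu ∈ I 1) (h : lam ^ (p - 1) = p * mu) {a : R}
    (ha : a - 1 ∈ Ideal.span {(p : R) * lam}) :
    ∃ c : R, c - 1 ∈ Ideal.span {lam} ∧ c ^ p = a := by
  obtain ⟨b, hb⟩ := Ideal.mem_span_singleton'.mp ha
  -- fixed point iteration for `y + y T₁(y) = b`
  let Φ : R → R := fun y => b - y * tOne p lam mu y
  let y : ℕ → R := fun n => Φ^[n] b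
  have hy_succ : ∀ n, y (n + 1) = Φ (y n) := fun n => Function.iterate_succ_apply' Φ n b
  have hΦ : ∀ (u v : R) (n : ℕ), u - v ∈ I n → Φ u - Φ v ∈ I (n + 1) := by
    intro u v n huv
    obtain ⟨q, hq, hqe⟩ := mul_tOne_sub hp.two_le (I 1) hlam hmu u v
    have : Φ u - Φ v = -(q * (u - v)) := by
      simp only [Φ]
      linear_combination -hqe
    rw [this]
    exact (I (n + 1)).neg_mem (hI.mul_mem hq huv)
  have hstep : ∀ n, y (n + 1) - y n ∈ I (n + 1) := by
    intro n
    induction n with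
    | zero =>
      have : y 1 - y 0 = -(tOne p lam mu b * b) := by
        simp only [y, Function.iterate_succ, Function.iterate_zero, Function.comp_apply, id_eq, Φ]
        ring
      rw [this]
      exact (I 1).neg_mem ((I 1).mul_mem_right _ (tOne_mem (I 1) hlam hmu b))
    | succ n ih =>
      rw [hy_succ n] at ih
      rw [hy_succ (n + 1), hy_succ n]
      exact hΦ _ _ _ ih
  obtain ⟨L, hL⟩ := hI.prec y (fun n => hI.anti n (hstep n))
  have hfix : L - Φ L = 0 := by
    apply hI.haus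
    intro n
    have e : L - Φ L = (L - y (n + 1)) - (Φ L - Φ (y n)) := by rw [hy_succ]; ring
    rw [e]
    exact (I n).sub_mem (hI.anti n (hL (n + 1))) (hI.anti n (hΦ _ _ _ (hL n)))
  refine ⟨1 + lam * L, ?_, ?_⟩
  · rw [add_sub_cancel_left]
    exact Ideal.mul_mem_right _ _ (Ideal.subset_span rfl)
  · rw [one_add_mul_pow hp h]
    have hL' : L + L * tOne p lam mu L = b := by
      have := sub_eq_zero.mp hfix
      simp only [Φ] at this
      linear_combination this
    rw [hL']
    have : a = 1 + b * (p * lam) := by rw [hb]; ring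
    rw [this]; ring

end CompleteFiltration

end Fermat.Agent.S56.H116
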