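import Mathlib
import Fermat.Agent.S56.H116.LiftAbs

/-!
# S56, wall FLAT (supersingular case): the lifting lemma in convolution rings

`O` a commutative ring, `H` a commutative cocommutative `O`-bialgebra (no finiteness needed),
`S` a commutative `O`-algebra with a complete separated filtration `J` (e.g. `J n = 𝔪 ^ n` for an
adically complete local ring, `completeFiltration_of_isAdicComplete`), `p` a prime which is a
non-zero-divisor of `S`, `lam`, `mu ∈ J 1` with `lam ^ (p - 1) = p * mu`
(i.e. `v(lam) > v(p) / (p - 1)`), `lam` a non-zero-divisor.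

Main results (all in the convolution ring `WithConv (H →ₗ[O] S)`):

* `exists_unique_algHom_of_approx`: a linear map `u₀ : H → S`, multiplicative modulo `lam` and
  with `u₀ ^ p ≡ 1` modulo `p * lam`, is congruent modulo `lam` to a unique algebra homomorphism
  `u : H → S` with `u ^ p = 1`.
* `algHom_eq_of_congr` (A): two points of order dividing `p` congruent modulo `lam` coincide.
* `exists_unique_lift_of_linear_lift`, `exists_unique_lift` (C): a point
  `ubar : H →ₐ[O] S ⧸ (p * lam)` of order dividing `p` lifts uniquely modulo `lam`.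
* `conv_pow_eq_one_of_kill`: if `id_H ^ p = 1` then every point has order dividing `p`;
  `conv_pow_eq_one_comp`: points of order dividing `p` are preserved by post-composition.
-/

set_option autoImplicit false
set_option linter.unusedSectionVars false

namespace Fermat.Agent.S56.H116

open WithConv TensorProduct Coalgebra


section ConvFiltration

variable {O C S : Type*} [CommRing O] [AddCommGroup C] [Module O C] [Coalgebra O C]
  [Coalgebra.IsCocomm O C] [CommRing S] [Algebra O S]

/-- The ideal of the convolution ring `Hom_O(C, S)` of maps with values in the ideal `J`. -/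
def ptIdeal (J : Ideal S) : Ideal (WithConv (C →ₗ[O] S)) where
  carrier := {f | ∀ c, f c ∈ J}
  add_mem' := fun {f g} hf hg c => J.add_mem (hf c) (hg c)
  zero_mem' := fun c => J.zero_mem
  smul_mem' := fun r f hf c => by
    show (r * f) c ∈ J
    rw [(ℛ O c).convMul_apply]
    exact J.sum_mem fun i _ => J.mul_mem_left _ (hf _)

theorem mem_ptIdeal {J : Ideal S} {f : WithConv (C →ₗ[O] S)} :
    f ∈ ptIdeal J ↔ ∀ c, f c ∈ J := Iff.rfl

theorem ptIdeal_mul_le (J₁ J₂ J₃ : Ideal S) (h : J₁ * J₂ ≤ J₃) :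
    (ptIdeal J₁ : Ideal (WithConv (C →ₗ[O] S))) * ptIdeal J₂ ≤ ptIdeal J₃ := by
  rw [Ideal.mul_le]
  intro f hf g hg c
  rw [(ℛ O c).convMul_apply]
  exact J₃.sum_mem fun i _ => h (Ideal.mul_mem_mul (hf _) (hg _))

theorem completeFiltration_ptIdeal {J : ℕ → Ideal S} (hJ : CompleteFiltration J) :
    CompleteFiltration (fun n => (ptIdeal (J n) : Ideal (WithConv (C →ₗ[O] S)))) where
  top := by
    rw [eq_top_iff]
    intro f _ c
    rw [hJ.top]; trivial
  anti := fun n f hf c => hJ.anti n (hf c)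
  mul := fun n => ptIdeal_mul_le _ _ _ (hJ.mul n)
  haus := fun f hf => by
    ext c
    exact hJ.haus _ fun n => hf n c
  prec := fun f hf => by
    have hex : ∀ c, ∃ L : S, ∀ n, L - f n c ∈ J n := fun c =>
      hJ.prec (fun n => f n c) (fun n => hf n c)
    choose L hL using hex
    have hadd : ∀ a b, L (a + b) = L a + L b := by
      intro a b
      rw [← sub_eq_zero]
      apply hJ.haus
      intro n
      have e : L (a + b) - (L a + L b) =
          (L (a + b) - f n (a + b)) - (L a - f n a) - (L b - f n b) := by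
        have : f n (a + b) = f n a + f n b := map_add _ _ _
        rw [this]; ring
      rw [e]
      exact (J n).sub_mem ((J n).sub_mem (hL _ n) (hL _ n)) (hL _ n)
    have hsmul : ∀ (r : O) a, L (r • a) = r • L a := by
      intro r a
      rw [← sub_eq_zero]
      apply hJ.haus
      intro n
      have e : L (r • a) - r • L a = (L (r • a) - f n (r • a)) - r • (L a - f n a) := by
        have : f n (r • a) = r • f n a := map_smul _ _ _
        rw [this, smul_sub]; ring
      rw [e]
      exact (J n).sub_mem (hL _ n) (Submodule.smul_of_tower_mem _ r (hL _ n))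
    refine ⟨toConv ⟨⟨L, hadd⟩, hsmul⟩, fun n c => ?_⟩
    exact hL c n

end ConvFiltration



section ConvBasic

variable {O C S : Type*} [CommRing O] [AddCommGroup C] [Module O C] [Coalgebra O C]
  [Coalgebra.IsCocomm O C] [CommRing S] [Algebra O S]

theorem conv_natCast_mul_apply (n : ℕ) (f : WithConv (C →ₗ[O] S)) (c : C) :
    ((n : WithConv (C →ₗ[O] S)) * f) c = (n : S) * f c := by
  rw [← nsmul_eq_mul]
  show (n • f.ofConv) c = _
  rw [LinearMap.smul_apply, nsmul_eq_mul]

theorem conv_algebraMap_mul_apply (s : S) (f : WithConv (C →ₗ[O] S)) (c : C) :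
    (algebraMap S (WithConv (C →ₗ[O] S)) s * f) c = s * f c := by
  rw [← Algebra.smul_def]
  rfl

theorem conv_natCast_nzd {p : ℕ} (hpS : ∀ s : S, (p : S) * s = 0 → s = 0)
    (f : WithConv (C →ₗ[O] S)) (hf : (p : WithConv (C →ₗ[O] S)) * f = 0) : f = 0 := by
  ext c
  apply hpS
  rw [← conv_natCast_mul_apply, hf]
  rfl

theorem mem_span_algebraMap_of_forall {s : S} (hs : ∀ t : S, s * t = 0 → t = 0)
    {f : WithConv (C →ₗ[O] S)} (hf : ∀ c, f c ∈ Ideal.span {s}) :
    f ∈ Ideal.span {algebraMap S (WithConv (C →ₗ[O] S)) s} := by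
  have hex : ∀ c, ∃ t : S, f c = s * t := fun c => by
    obtain ⟨t, ht⟩ := Ideal.mem_span_singleton'.mp (hf c)
    exact ⟨t, by rw [← ht, mul_comm]⟩
  choose g hg using hex
  have hadd : ∀ a b, g (a + b) = g a + g b := by
    intro a b
    rw [← sub_eq_zero]
    apply hs
    have : f (a + b) = f a + f b := map_add _ _ _
    rw [mul_sub, mul_add, ← hg, ← hg, ← hg, this, sub_self]
  have hsmul : ∀ (r : O) a, g (r • a) = r • g a := by
    intro r a
    rw [← sub_eq_zero]
    apply hs
    have : f (r • a) = r • f a := map_smul _ _ _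
    rw [mul_sub, mul_smul_comm, ← hg, ← hg, this, sub_self]
  rw [Ideal.mem_span_singleton']
  refine ⟨toConv ⟨⟨g, hadd⟩, hsmul⟩, ?_⟩
  ext c
  rw [mul_comm]
  show (algebraMap S (WithConv (C →ₗ[O] S)) s * _) c = f c
  rw [conv_algebraMap_mul_apply, hg c]
  rfl

theorem forall_mem_span_of_mem_span_algebraMap {s : S}
    {f : WithConv (C →ₗ[O] S)} (hf : f ∈ Ideal.span {algebraMap S (WithConv (C →ₗ[O] S)) s})
    (c : C) : f c ∈ Ideal.span {s} := by
  obtain ⟨g, rfl⟩ := Ideal.mem_span_singleton'.mp hf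
  rw [mul_comm, conv_algebraMap_mul_apply]
  exact Ideal.mul_mem_right _ _ (Ideal.subset_span rfl)

theorem algebraMap_mem_ptIdeal {J : Ideal S} {s : S} (hs : s ∈ J) :
    algebraMap S (WithConv (C →ₗ[O] S)) s ∈ (ptIdeal J : Ideal (WithConv (C →ₗ[O] S))) := by
  intro c
  have := conv_algebraMap_mul_apply (O := O) s (1 : WithConv (C →ₗ[O] S)) c
  rw [mul_one] at this
  rw [this]
  exact J.mul_mem_right _ hs

end ConvBasic



section ConvHom

variable {O C D S T : Type*} [CommRing O] [AddCommGroup C] [Module O C] [Coalgebra O C]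
  [AddCommGroup D] [Module O D] [Coalgebra O D]
  [CommRing S] [Algebra O S] [CommRing T] [Algebra O T]

/-- Post-composition with an algebra homomorphism commutes with convolution powers. -/
theorem conv_algHom_comp_pow (φ : S →ₐ[O] T) (f : WithConv (C →ₗ[O] S)) (n : ℕ) :
    toConv (φ.toLinearMap ∘ₗ (f ^ n).ofConv) = toConv (φ.toLinearMap ∘ₗ f.ofConv) ^ n := by
  induction n with
  | zero =>
    rw [pow_zero, pow_zero]
    ext c
    simp
  | succ n ih =>
    rw [pow_succ, pow_succ, ← ih, LinearMap.algHom_comp_convMul_distrib]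

/-- Pre-composition with a coalgebra homomorphism commutes with convolution powers. -/
theorem conv_comp_coalgHom_pow (ψ : D →ₗc[O] C) (f : WithConv (C →ₗ[O] S)) (n : ℕ) :
    toConv ((f ^ n).ofConv ∘ₗ ψ.toLinearMap) = toConv (f.ofConv ∘ₗ ψ.toLinearMap) ^ n := by
  induction n with
  | zero =>
    rw [pow_zero, pow_zero]
    ext c
    simp
  | succ n ih =>
    rw [pow_succ, pow_succ, ← ih, LinearMap.convMul_comp_coalgHom_distrib]

/-- The external product `f ⊠ f : C ⊗ C → S` commutes with convolution powers. -/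
theorem conv_boxtimes_pow (f : WithConv (C →ₗ[O] S)) (n : ℕ) :
    toConv (LinearMap.mul' O S ∘ₗ TensorProduct.map (f ^ n).ofConv (f ^ n).ofConv) =
      (toConv (LinearMap.mul' O S ∘ₗ TensorProduct.map f.ofConv f.ofConv) :
        WithConv (C ⊗[O] C →ₗ[O] S)) ^ n := by
  induction n with
  | zero =>
    rw [pow_zero, pow_zero]
    ext a b
    simp [mul_comm]
  | succ n ih =>
    rw [pow_succ, pow_succ, ← ih]
    have h1 := TensorProduct.map_convMul_map (R := O) (f := f ^ n) (h := f) (g := f ^ n) (k := f)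
    have h2 := LinearMap.algHom_comp_convMul_distrib (R := O) (Algebra.TensorProduct.lmul' O (S := S))
      (toConv (TensorProduct.map (f ^ n).ofConv (f ^ n).ofConv))
      (toConv (TensorProduct.map f.ofConv f.ofConv))
    rw [h1] at h2
    apply WithConv.ofConv_injective
    exact h2

end ConvHom



section Adic

variable {S : Type*} [CommRing S]

/-- An `I`-adically complete ring carries the complete filtration `n ↦ I ^ n`. -/
theorem completeFiltration_of_isAdicComplete (I : Ideal S) [IsAdicComplete I S] :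
    CompleteFiltration (fun n => I ^ n) where
  top := by simp
  anti := fun n => Ideal.pow_le_pow_right (Nat.le_succ n)
  mul := fun n => by rw [pow_one, ← pow_succ']
  haus := fun x hx => by
    apply IsHausdorff.haus (I := I) inferInstance x
    intro n
    rw [SModEq.zero, smul_eq_mul, Ideal.mul_top]
    exact hx n
  prec := fun f hf => by
    have hmn : ∀ {m n : ℕ}, m ≤ n → f m ≡ f n [SMOD (I ^ m • ⊤ : Submodule S S)] := by
      intro m n hmn
      rw [smul_eq_mul, Ideal.mul_top]
      induction n, hmn using Nat.le_induction with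
      | base => exact SModEq.refl _
      | succ n hmn ih =>
        refine ih.trans ?_
        rw [SModEq.comm, SModEq.sub_mem]
        exact Ideal.pow_le_pow_right hmn (hf n)
    obtain ⟨L, hL⟩ := IsPrecomplete.prec (I := I) inferInstance hmn
    refine ⟨L, fun n => ?_⟩
    have := hL n
    rw [smul_eq_mul, Ideal.mul_top, SModEq.comm, SModEq.sub_mem] at this
    exact this

end Adic



section Main

variable {O H S : Type*} [CommRing O] [CommRing H] [Bialgebra O H] [Coalgebra.IsCocomm O H]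
  [CommRing S] [Algebra O S]

theorem conv_mul_apply_one (f g : WithConv (H →ₗ[O] S)) : (f * g) 1 = f 1 * g 1 := by
  rw [LinearMap.convMul_apply, Bialgebra.comul_one]
  rfl

theorem conv_pow_apply_one (f : WithConv (H →ₗ[O] S)) (n : ℕ) : (f ^ n) 1 = f 1 ^ n := by
  induction n with
  | zero =>
    rw [pow_zero, pow_zero, LinearMap.convOne_apply, Bialgebra.counit_one, map_one]
  | succ n ih => rw [pow_succ, pow_succ, conv_mul_apply_one, ih]

theorem conv_sub_apply {C : Type*} [AddCommGroup C] [Module O C] (f g : WithConv (C →ₗ[O] S))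
    (c : C) : (f - g) c = f c - g c := rfl

/-- **Approximate points are close to points.**  Let `u₀ : H → S` be a linear map which is
multiplicative modulo `lam` and whose `p`-th convolution power is trivial modulo `p * lam`,
where `lam ^ (p - 1) ∈ p * 𝔪`.  Then there is a unique `O`-algebra homomorphism `u : H → S`
of convolution order dividing `p` which is congruent to `u₀` modulo `lam`. -/
theorem exists_unique_algHom_of_approx
    {J : ℕ → Ideal S} (hJ : CompleteFiltration J) {p : ℕ} (hp : p.Prime)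
    (hpS : ∀ s : S, (p : S) * s = 0 → s = 0)
    {lam mu : S} (hlam : lam ∈ J 1) (hmu : mu ∈ J 1) (hlam0 : ∀ s : S, lam * s = 0 → s = 0)
    (h : lam ^ (p - 1) = p * mu)
    (u₀ : H →ₗ[O] S)
    (h1 : ∀ x, (toConv u₀ ^ p : WithConv (H →ₗ[O] S)) x - algebraMap O S (counit x) ∈
      Ideal.span {(p : S) * lam})
    (h2 : ∀ a b, u₀ (a * b) - u₀ a * u₀ b ∈ Ideal.span {lam}) :
    ∃! u : H →ₐ[O] S, (toConv u.toLinearMap : WithConv (H →ₗ[O] S)) ^ p = 1 ∧
      ∀ x, u x - u₀ x ∈ Ideal.span {lam} := by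
  have hI : CompleteFiltration (fun n => (ptIdeal (J n) : Ideal (WithConv (H →ₗ[O] S)))) :=
    completeFiltration_ptIdeal hJ
  have hI₂ : CompleteFiltration
      (fun n => (ptIdeal (J n) : Ideal (WithConv (H ⊗[O] H →ₗ[O] S)))) :=
    completeFiltration_ptIdeal hJ
  have hpR := conv_natCast_nzd (O := O) (C := H) hpS
  have hpR₂ := conv_natCast_nzd (O := O) (C := H ⊗[O] H) hpS
  have hlamR : algebraMap S (WithConv (H →ₗ[O] S)) lam ∈
      (ptIdeal (J 1) : Ideal (WithConv (H →ₗ[O] S))) := algebraMap_mem_ptIdeal hlam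
  have hmuR : algebraMap S (WithConv (H →ₗ[O] S)) mu ∈
      (ptIdeal (J 1) : Ideal (WithConv (H →ₗ[O] S))) := algebraMap_mem_ptIdeal hmu
  have hR : algebraMap S (WithConv (H →ₗ[O] S)) lam ^ (p - 1) =
      p * algebraMap S (WithConv (H →ₗ[O] S)) mu := by
    rw [← map_pow, h, map_mul, map_natCast]
  have hlamR₂ : algebraMap S (WithConv (H ⊗[O] H →ₗ[O] S)) lam ∈
      (ptIdeal (J 1) : Ideal (WithConv (H ⊗[O] H →ₗ[O] S))) := algebraMap_mem_ptIdeal hlam
  have hmuR₂ : algebraMap S (WithConv (H ⊗[O] H →ₗ[O] S)) mu ∈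
      (ptIdeal (J 1) : Ideal (WithConv (H ⊗[O] H →ₗ[O] S))) := algebraMap_mem_ptIdeal hmu
  have hR₂ : algebraMap S (WithConv (H ⊗[O] H →ₗ[O] S)) lam ^ (p - 1) =
      p * algebraMap S (WithConv (H ⊗[O] H →ₗ[O] S)) mu := by
    rw [← map_pow, h, map_mul, map_natCast]
  have hplam0 : ∀ s : S, ((p : S) * lam) * s = 0 → s = 0 := fun s hs =>
    hlam0 s (hpS _ (by rw [← mul_assoc]; exact hs))
  -- the `p`-th power of `u₀` is `≡ 1 mod p * lam`
  have ha₀ : (toConv u₀ ^ p : WithConv (H →ₗ[O] S)) - 1 ∈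
      Ideal.span {(p : WithConv (H →ₗ[O] S)) * algebraMap S (WithConv (H →ₗ[O] S)) lam} := by
    have e : (p : WithConv (H →ₗ[O] S)) * algebraMap S (WithConv (H →ₗ[O] S)) lam =
        algebraMap S (WithConv (H →ₗ[O] S)) (p * lam) := by rw [map_mul, map_natCast]
    rw [e]
    exact mem_span_algebraMap_of_forall hplam0 h1
  obtain ⟨c₀, hc₀, hc₀p⟩ := hI.exists_pow_eq hp hlamR hmuR hR ha₀
  have hspan_le : Ideal.span {algebraMap S (WithConv (H →ₗ[O] S)) lam} ≤
      (ptIdeal (J 1) : Ideal (WithConv (H →ₗ[O] S))) :=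
    (Ideal.span_singleton_le_iff_mem _).mpr hlamR
  have hc₀u : IsUnit c₀ := by
    have := hI.isUnit_one_add (hspan_le hc₀)
    rwa [add_sub_cancel] at this
  obtain ⟨c, rfl⟩ := hc₀u
  -- the corrected map
  obtain ⟨u, hu⟩ : ∃ u : WithConv (H →ₗ[O] S), u = toConv u₀ * ((c⁻¹ : (WithConv (H →ₗ[O] S))ˣ) :
      WithConv (H →ₗ[O] S)) := ⟨_, rfl⟩
  have hup : u ^ p = 1 := by
    rw [hu, mul_pow, ← hc₀p, ← mul_pow, Units.mul_inv, one_pow]
  have hu0 : u - toConv u₀ ∈ Ideal.span {algebraMap S (WithConv (H →ₗ[O] S)) lam} := by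
    have e : u - toConv u₀ = -(toConv u₀ * ((c⁻¹ : (WithConv (H →ₗ[O] S))ˣ) :
        WithConv (H →ₗ[O] S))) * ((c : WithConv (H →ₗ[O] S)) - 1) := by
      rw [hu, mul_sub, mul_one, neg_mul, mul_assoc, Units.inv_mul, mul_one]
      ring
    rw [e]
    exact Ideal.mul_mem_left _ _ hc₀
  have hu0' : ∀ x, u x - u₀ x ∈ Ideal.span {lam} := fun x =>
    forall_mem_span_of_mem_span_algebraMap hu0 x
  -- multiplicativity
  have hmul_approx : ∀ a b, u (a * b) - u a * u b ∈ Ideal.span {lam} := by
    intro a b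
    have e : u (a * b) - u a * u b = (u (a * b) - u₀ (a * b)) + (u₀ (a * b) - u₀ a * u₀ b)
        - (u a - u₀ a) * u b - u₀ a * (u b - u₀ b) := by ring
    rw [e]
    refine Ideal.sub_mem _ (Ideal.sub_mem _ (Ideal.add_mem _ (hu0' _) (h2 a b)) ?_) ?_
    · exact Ideal.mul_mem_right _ _ (hu0' a)
    · exact Ideal.mul_mem_left _ _ (hu0' b)
  obtain ⟨z₁, hz₁⟩ : ∃ z₁ : WithConv (H ⊗[O] H →ₗ[O] S),
      z₁ = toConv (u.ofConv ∘ₗ (Bialgebra.mulCoalgHom O H).toLinearMap) := ⟨_, rfl⟩
  obtain ⟨z₂, hz₂⟩ : ∃ z₂ : WithConv (H ⊗[O] H →ₗ[O] S),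
      z₂ = toConv (LinearMap.mul' O S ∘ₗ TensorProduct.map u.ofConv u.ofConv) := ⟨_, rfl⟩
  have hz₁p : z₁ ^ p = 1 := by
    rw [hz₁, ← conv_comp_coalgHom_pow, hup]
    ext a b
    simp [mul_comm]
  have hz₂p : z₂ ^ p = 1 := by
    rw [hz₂, ← conv_boxtimes_pow, hup]
    ext a b
    simp [mul_comm]
  have hz : z₁ - z₂ ∈ Ideal.span {algebraMap S (WithConv (H ⊗[O] H →ₗ[O] S)) lam} := by
    apply mem_span_algebraMap_of_forall hlam0
    intro t
    induction t using TensorProduct.induction_on with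
    | zero =>
      have : (z₁ - z₂) (0 : H ⊗[O] H) = 0 := map_zero (z₁ - z₂).ofConv
      rw [this]; exact Ideal.zero_mem _
    | tmul a b =>
      have : (z₁ - z₂) (a ⊗ₜ[O] b) = u (a * b) - u a * u b := by
        rw [hz₁, hz₂]; rfl
      rw [this]; exact hmul_approx a b
    | add x y hx hy =>
      have : (z₁ - z₂) (x + y) = (z₁ - z₂) x + (z₁ - z₂) y := map_add (z₁ - z₂).ofConv x y
      rw [this]; exact Ideal.add_mem _ hx hy
  have hzz : z₁ = z₂ := hI₂.eq_of_pow_eq_pow hp hpR₂ hlamR₂ hmuR₂ hR₂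
    (IsUnit.of_pow_eq_one hz₂p hp.ne_zero) hz (hz₁p.trans hz₂p.symm)
  have hmul : ∀ a b, u (a * b) = u a * u b := by
    intro a b
    have := congrArg (fun z : WithConv (H ⊗[O] H →ₗ[O] S) => z (a ⊗ₜ[O] b)) hzz
    rw [hz₁, hz₂] at this
    exact this
  have hone : u 1 = 1 := by
    have e1 : u 1 ^ p = 1 := by
      rw [← conv_pow_apply_one, hup, LinearMap.convOne_apply, Bialgebra.counit_one, map_one]
    have e2 : u 1 * u 1 = u 1 := by rw [← hmul, mul_one]
    have e3 : IsUnit (u 1) := IsUnit.of_pow_eq_one e1 hp.ne_zero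
    exact (e3.mul_left_inj).mp (by rw [e2, one_mul])
  refine ⟨AlgHom.ofLinearMap u.ofConv hone hmul, ⟨?_, ?_⟩, ?_⟩
  · have : (toConv (AlgHom.ofLinearMap u.ofConv hone hmul).toLinearMap :
        WithConv (H →ₗ[O] S)) = u := by
      ext x; rfl
    rw [this, hup]
  · intro x
    exact hu0' x
  · rintro u' ⟨hu'p, hu'0⟩
    have hd : (toConv u'.toLinearMap : WithConv (H →ₗ[O] S)) - u ∈
        Ideal.span {algebraMap S (WithConv (H →ₗ[O] S)) lam} := by
      apply mem_span_algebraMap_of_forall hlam0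
      intro x
      have e : ((toConv u'.toLinearMap : WithConv (H →ₗ[O] S)) - u) x =
          (u' x - u₀ x) - (u x - u₀ x) := by
        rw [conv_sub_apply]
        show u' x - u x = _
        ring
      rw [e]
      exact Ideal.sub_mem _ (hu'0 x) (hu0' x)
    have := hI.eq_of_pow_eq_pow hp hpR hlamR hmuR hR (IsUnit.of_pow_eq_one hup hp.ne_zero) hd
      (hu'p.trans hup.symm)
    apply AlgHom.toLinearMap_injective
    have h' := congrArg WithConv.ofConv this
    exact h'

end Main



section Corollaries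

variable {O H S T : Type*} [CommRing O] [CommRing H] [Bialgebra O H] [Coalgebra.IsCocomm O H]
  [CommRing S] [Algebra O S] [CommRing T] [Algebra O T]

/-- If `H` is killed by `p` (i.e. `id_H ^ p = 1` in the convolution ring `End_O(H)`), then every
point of `H` has convolution order dividing `p`. -/
theorem conv_pow_eq_one_of_kill {p : ℕ}
    (hkill : (toConv (LinearMap.id : H →ₗ[O] H) : WithConv (H →ₗ[O] H)) ^ p = 1)
    (v : H →ₐ[O] T) : (toConv v.toLinearMap : WithConv (H →ₗ[O] T)) ^ p = 1 := by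
  have := conv_algHom_comp_pow v (toConv (LinearMap.id : H →ₗ[O] H)) p
  rw [hkill] at this
  have e : (toConv (v.toLinearMap ∘ₗ (toConv (LinearMap.id : H →ₗ[O] H)).ofConv) :
      WithConv (H →ₗ[O] T)) = toConv v.toLinearMap := rfl
  rw [e] at this
  rw [← this]
  ext x
  simp

/-- Post-composing a point of convolution order dividing `p` with an algebra homomorphism gives
a point of convolution order dividing `p`. -/
theorem conv_pow_eq_one_comp {p : ℕ} (φ : S →ₐ[O] T) {v : H →ₐ[O] S}
    (hv : (toConv v.toLinearMap : WithConv (H →ₗ[O] S)) ^ p = 1) :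
    (toConv (φ.comp v).toLinearMap : WithConv (H →ₗ[O] T)) ^ p = 1 := by
  have := conv_algHom_comp_pow φ (toConv v.toLinearMap : WithConv (H →ₗ[O] S)) p
  rw [hv] at this
  have e : (toConv (φ.toLinearMap ∘ₗ (toConv v.toLinearMap : WithConv (H →ₗ[O] S)).ofConv) :
      WithConv (H →ₗ[O] T)) = toConv (φ.comp v).toLinearMap := rfl
  rw [e] at this
  rw [← this]
  ext x
  simp

/-- **Rigidity (A).**  Two points of `H` with values in `S`, of convolution order dividing `p`,
which are congruent modulo `lam` (where `lam ^ (p - 1) ∈ p * 𝔪`) coincide. -/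
theorem algHom_eq_of_congr
    {J : ℕ → Ideal S} (hJ : CompleteFiltration J) {p : ℕ} (hp : p.Prime)
    (hpS : ∀ s : S, (p : S) * s = 0 → s = 0)
    {lam mu : S} (hlam : lam ∈ J 1) (hmu : mu ∈ J 1) (hlam0 : ∀ s : S, lam * s = 0 → s = 0)
    (h : lam ^ (p - 1) = p * mu) {u u' : H →ₐ[O] S}
    (hu : (toConv u.toLinearMap : WithConv (H →ₗ[O] S)) ^ p = 1)
    (hu' : (toConv u'.toLinearMap : WithConv (H →ₗ[O] S)) ^ p = 1)
    (hc : ∀ x, u' x - u x ∈ Ideal.span {lam}) : u' = u := by
  have hI : CompleteFiltration (fun n => (ptIdeal (J n) : Ideal (WithConv (H →ₗ[O] S)))) :=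
    completeFiltration_ptIdeal hJ
  have hR : algebraMap S (WithConv (H →ₗ[O] S)) lam ^ (p - 1) =
      p * algebraMap S (WithConv (H →ₗ[O] S)) mu := by
    rw [← map_pow, h, map_mul, map_natCast]
  have hd : (toConv u'.toLinearMap : WithConv (H →ₗ[O] S)) - toConv u.toLinearMap ∈
      Ideal.span {algebraMap S (WithConv (H →ₗ[O] S)) lam} :=
    mem_span_algebraMap_of_forall hlam0 hc
  have := hI.eq_of_pow_eq_pow hp (conv_natCast_nzd (O := O) (C := H) hpS)
    (algebraMap_mem_ptIdeal hlam) (algebraMap_mem_ptIdeal hmu) hR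
    (IsUnit.of_pow_eq_one hu hp.ne_zero) hd (hu'.trans hu.symm)
  apply AlgHom.toLinearMap_injective
  exact congrArg WithConv.ofConv this

/-- **Lifting lemma (C)**, with a given linear lift. -/
theorem exists_unique_lift_of_linear_lift
    {J : ℕ → Ideal S} (hJ : CompleteFiltration J) {p : ℕ} (hp : p.Prime)
    (hpS : ∀ s : S, (p : S) * s = 0 → s = 0)
    {lam mu : S} (hlam : lam ∈ J 1) (hmu : mu ∈ J 1) (hlam0 : ∀ s : S, lam * s = 0 → s = 0)
    (h : lam ^ (p - 1) = p * mu)
    (ubar : H →ₐ[O] S ⧸ Ideal.span {(p : S) * lam})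
    (hubar : (toConv ubar.toLinearMap :
      WithConv (H →ₗ[O] S ⧸ Ideal.span {(p : S) * lam})) ^ p = 1)
    (u₀ : H →ₗ[O] S) (hu₀ : ∀ x, Ideal.Quotient.mk (Ideal.span {(p : S) * lam}) (u₀ x) = ubar x) :
    ∃! u : H →ₐ[O] S, (toConv u.toLinearMap : WithConv (H →ₗ[O] S)) ^ p = 1 ∧
      ∀ x, u x - u₀ x ∈ Ideal.span {lam} := by
  have hle : Ideal.span {(p : S) * lam} ≤ Ideal.span {lam} :=
    (Ideal.span_singleton_le_iff_mem _).mpr (Ideal.mul_mem_left _ _ (Ideal.subset_span rfl))
  apply exists_unique_algHom_of_approx hJ hp hpS hlam hmu hlam0 h u₀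
  · intro x
    rw [← Ideal.Quotient.eq]
    have e := conv_algHom_comp_pow (Ideal.Quotient.mkₐ O (Ideal.span {(p : S) * lam}))
      (toConv u₀ : WithConv (H →ₗ[O] S)) p
    have e' : (toConv ((Ideal.Quotient.mkₐ O (Ideal.span {(p : S) * lam})).toLinearMap ∘ₗ
        (toConv u₀ : WithConv (H →ₗ[O] S)).ofConv) :
        WithConv (H →ₗ[O] S ⧸ Ideal.span {(p : S) * lam})) = toConv ubar.toLinearMap := by
      ext x
      exact hu₀ x
    rw [e', hubar] at e
    have e2 := congrArg (fun f : WithConv (H →ₗ[O] S ⧸ Ideal.span {(p : S) * lam}) => f x) e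
    simp only at e2
    rw [LinearMap.convOne_apply] at e2
    exact e2
  · intro a b
    apply hle
    rw [← Ideal.Quotient.eq, hu₀ (a * b), map_mul ubar, map_mul (Ideal.Quotient.mk _), hu₀, hu₀]

theorem span_natCast_mul_le (p : ℕ) (lam : S) :
    Ideal.span {(p : S) * lam} ≤ Ideal.span {lam} :=
  (Ideal.span_singleton_le_iff_mem _).mpr (Ideal.mul_mem_left _ _ (Ideal.subset_span rfl))

/-- **Lifting lemma (C)** for projective `H`: every point of `H` with values in `S / p * lam`,
of convolution order dividing `p`, lifts uniquely modulo `lam` to a point with values in `S`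
of convolution order dividing `p`. -/
theorem exists_unique_lift [Module.Projective O H]
    {J : ℕ → Ideal S} (hJ : CompleteFiltration J) {p : ℕ} (hp : p.Prime)
    (hpS : ∀ s : S, (p : S) * s = 0 → s = 0)
    {lam mu : S} (hlam : lam ∈ J 1) (hmu : mu ∈ J 1) (hlam0 : ∀ s : S, lam * s = 0 → s = 0)
    (h : lam ^ (p - 1) = p * mu)
    (ubar : H →ₐ[O] S ⧸ Ideal.span {(p : S) * lam})
    (hubar : (toConv ubar.toLinearMap :
      WithConv (H →ₗ[O] S ⧸ Ideal.span {(p : S) * lam})) ^ p = 1) :
    ∃! u : H →ₐ[O] S, (toConv u.toLinearMap : WithConv (H →ₗ[O] S)) ^ p = 1 ∧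
      ∀ x, Ideal.Quotient.mk (Ideal.span {lam}) (u x) =
        Ideal.Quotient.factor (span_natCast_mul_le p lam) (ubar x) := by
  obtain ⟨u₀, hu₀⟩ := Module.projective_lifting_property
    (Ideal.Quotient.mkₐ O (Ideal.span {(p : S) * lam})).toLinearMap ubar.toLinearMap
    (Ideal.Quotient.mkₐ_surjective O _)
  have hu₀' : ∀ x, Ideal.Quotient.mk (Ideal.span {(p : S) * lam}) (u₀ x) = ubar x := fun x =>
    LinearMap.congr_fun hu₀ x
  have key : ∀ u : H →ₐ[O] S, (∀ x, u x - u₀ x ∈ Ideal.span {lam}) ↔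
      ∀ x, Ideal.Quotient.mk (Ideal.span {lam}) (u x) =
        Ideal.Quotient.factor (span_natCast_mul_le p lam) (ubar x) := by
    intro u
    refine forall_congr' fun x => ?_
    rw [← hu₀' x, Ideal.Quotient.factor_mk, Ideal.Quotient.eq]
  obtain ⟨u, hu, huniq⟩ := exists_unique_lift_of_linear_lift hJ hp hpS hlam hmu hlam0 h ubar
    hubar u₀ hu₀'
  refine ⟨u, ⟨hu.1, (key u).mp hu.2⟩, fun u' hu' => huniq u' ⟨hu'.1, (key u').mpr hu'.2⟩⟩

end Corollaries

end Fermat.Agent.S56.H116
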