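import Mathlib
import Fermat.Agent.S56.H116.LiftConv
import Fermat.Agent.S56.H134.FLDMain
import Fermat.Agent.S56.H134.FLDIso

/-!
# S56, wall FLAT: Eisenstein extensions of a complete discrete valuation ring are complete

`A` a discrete valuation ring, `G` an Eisenstein polynomial (`H134.FLD.IsEis`), `B = A[X]/(G)`.
* `exists_eq_sum`, `coeff_mem_pow_of_dvd`: coordinates in the basis `1, Π, …, Π^(e-1)`;
* `completeFiltration_adjoinRoot`: if `A` is complete then `B` is complete for the `Π`-adic
  filtration (`CompleteFiltration`, the input of the lifting lemma `LiftConv.lean`).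
-/

set_option autoImplicit false
set_option linter.unusedSectionVars false

namespace Fermat.Agent.S56.H116

open Polynomial IsLocalRing Fermat.Agent.S56.H134.FLD

noncomputable section


section Eis

variable {A : Type*} [CommRing A] [IsDomain A] [IsDiscreteValuationRing A]
variable {G : A[X]} (hG : IsEis G)
include hG

/-- Every element of `A[X]/(G)` is `∑_{j<e} c_j Π^j`. -/
theorem exists_eq_sum (b : AdjoinRoot G) :
    ∃ c : ℕ → A, b = ∑ j ∈ Finset.range G.natDegree,
      AdjoinRoot.of G (c j) * AdjoinRoot.root G ^ j := by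
  obtain ⟨f, rfl⟩ := AdjoinRoot.mk_surjective b
  refine ⟨(f %ₘ G).coeff, ?_⟩
  have h1 : AdjoinRoot.mk G f = AdjoinRoot.mk G (f %ₘ G) := by
    rw [AdjoinRoot.mk_eq_mk]
    exact ⟨f /ₘ G, by
      have := Polynomial.modByMonic_add_div f G
      linear_combination (-1 : A[X]) * this⟩
  rw [h1]
  apply hG.mk_eq_sum
  exact Polynomial.natDegree_modByMonic_lt f hG.monic (fun h => by
    have := hG.pos; rw [h] at this; simp at this)

/-- If `Π ^ (e m) ∣ ∑_{j<e} c_j Π^j` then all `c_j ∈ 𝔪_A ^ m`. -/
theorem coeff_mem_pow_of_dvd (c : ℕ → A) (m : ℕ)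
    (h : AdjoinRoot.root G ^ (G.natDegree * m) ∣
      ∑ j ∈ Finset.range G.natDegree, AdjoinRoot.of G (c j) * AdjoinRoot.root G ^ j)
    (j : ℕ) (hj : j < G.natDegree) : c j ∈ maximalIdeal A ^ m := by
  rw [hG.pow_dvd_iff_le_val, hG.le_val_sum_iff] at h
  have h1 := h j hj
  obtain ⟨ϖ, hϖ⟩ := IsDiscreteValuationRing.exists_irreducible A
  rw [hϖ.maximalIdeal_eq, Ideal.span_singleton_pow, Ideal.mem_span_singleton,
    ← IsDiscreteValuationRing.addVal_le_iff_dvd, IsDiscreteValuationRing.addVal_pow,
    IsDiscreteValuationRing.addVal_uniformizer hϖ]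
  simp only [nsmul_eq_mul, mul_one]
  induction hv : IsDiscreteValuationRing.addVal A (c j) using ENat.recTopCoe with
  | top => exact le_top
  | coe n =>
    rw [hv] at h1
    have h2 : G.natDegree * m ≤ G.natDegree * n + j := by
      have : ((G.natDegree * m : ℕ) : ℕ∞) ≤ ((G.natDegree * n + j : ℕ) : ℕ∞) := by
        push_cast
        simpa using h1
      exact_mod_cast this
    have h3 : m ≤ n := by
      by_contra hcon
      have hcon' : n + 1 ≤ m := by omega
      have : G.natDegree * (n + 1) ≤ G.natDegree * m := Nat.mul_le_mul_left _ hcon'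
      rw [Nat.mul_add, Nat.mul_one] at this
      omega
    exact_mod_cast h3

end Eis



section Complete

variable {A : Type*} [CommRing A] [IsDomain A] [IsDiscreteValuationRing A]
variable {G : A[X]} (hG : IsEis G)
include hG

theorem mem_span_root_pow_iff (b : AdjoinRoot G) (n : ℕ) :
    b ∈ Ideal.span {AdjoinRoot.root G ^ n} ↔ (n : ℕ∞) ≤ hG.val b := by
  rw [Ideal.mem_span_singleton, hG.pow_dvd_iff_le_val]

theorem of_mem_span_root_pow {x : A} {n : ℕ} (hx : x ∈ maximalIdeal A ^ n) :
    AdjoinRoot.of G x ∈ Ideal.span {AdjoinRoot.root G ^ (G.natDegree * n)} := by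
  rw [mem_span_root_pow_iff hG, hG.val_of]
  obtain ⟨ϖ, hϖ⟩ := IsDiscreteValuationRing.exists_irreducible A
  rw [hϖ.maximalIdeal_eq, Ideal.span_singleton_pow, Ideal.mem_span_singleton,
    ← IsDiscreteValuationRing.addVal_le_iff_dvd, IsDiscreteValuationRing.addVal_pow,
    IsDiscreteValuationRing.addVal_uniformizer hϖ] at hx
  simp only [nsmul_eq_mul, mul_one] at hx
  push_cast
  rw [nsmul_eq_mul]
  gcongr

/-- For a complete discrete valuation ring `A` and an Eisenstein polynomial `G`, the ring
`A[X]/(G)` is complete for the filtration by the powers of `Π`. -/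
theorem completeFiltration_adjoinRoot [IsAdicComplete (maximalIdeal A) A] :
    CompleteFiltration (fun n => Ideal.span {AdjoinRoot.root G ^ n}) where
  top := by simp
  anti := fun n => by
    rw [Ideal.span_singleton_le_span_singleton]
    exact pow_dvd_pow _ (Nat.le_succ n)
  mul := fun n => by
    rw [Ideal.span_singleton_mul_span_singleton, ← pow_add, add_comm]
  haus := fun x hx => by
    rw [← hG.val_eq_top_iff]
    apply ENat.eq_top_iff_forall_ge.mpr
    intro n
    exact (mem_span_root_pow_iff hG x n).mp (hx n)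
  prec := fun f hf => by
    have he := hG.pos
    have hA := completeFiltration_of_isAdicComplete (maximalIdeal A)
    -- telescoping
    have tele : ∀ m n, m ≤ n → f n - f m ∈ Ideal.span {AdjoinRoot.root G ^ m} := by
      intro m n hmn
      induction n, hmn using Nat.le_induction with
      | base => rw [sub_self]; exact Ideal.zero_mem _
      | succ n hmn ih =>
        have e : f (n + 1) - f m = (f (n + 1) - f n) + (f n - f m) := by ring
        rw [e]
        refine Ideal.add_mem _ ?_ ih
        exact Ideal.span_singleton_le_span_singleton.mpr (pow_dvd_pow _ hmn) (hf n)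
    have hex : ∀ n, ∃ c : ℕ → A, f (G.natDegree * n) = ∑ j ∈ Finset.range G.natDegree,
        AdjoinRoot.of G (c j) * AdjoinRoot.root G ^ j := fun n => exists_eq_sum hG _
    choose c hc using hex
    have hcauchy : ∀ j, j < G.natDegree → ∀ n, c (n + 1) j - c n j ∈ maximalIdeal A ^ n := by
      intro j hj n
      apply coeff_mem_pow_of_dvd hG (fun j => c (n + 1) j - c n j) n _ j hj
      have e : ∑ j ∈ Finset.range G.natDegree,
          AdjoinRoot.of G (c (n + 1) j - c n j) * AdjoinRoot.root G ^ j =
          f (G.natDegree * (n + 1)) - f (G.natDegree * n) := by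
        rw [hc, hc, ← Finset.sum_sub_distrib]
        refine Finset.sum_congr rfl fun j _ => ?_
        rw [map_sub, sub_mul]
      rw [e, ← Ideal.mem_span_singleton]
      exact tele _ _ (Nat.mul_le_mul_left _ (Nat.le_succ n))
    have hlim : ∀ j, ∃ a : A, j < G.natDegree → ∀ n, a - c n j ∈ maximalIdeal A ^ n := by
      intro j
      by_cases hj : j < G.natDegree
      · obtain ⟨a, ha⟩ := hA.prec (fun n => c n j) (hcauchy j hj)
        exact ⟨a, fun _ => ha⟩
      · exact ⟨0, fun h => absurd h hj⟩
    choose a ha using hlim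
    refine ⟨∑ j ∈ Finset.range G.natDegree, AdjoinRoot.of G (a j) * AdjoinRoot.root G ^ j,
      fun m => ?_⟩
    have e : ∑ j ∈ Finset.range G.natDegree, AdjoinRoot.of G (a j) * AdjoinRoot.root G ^ j - f m =
        (∑ j ∈ Finset.range G.natDegree,
          AdjoinRoot.of G (a j - c m j) * AdjoinRoot.root G ^ j) +
        (f (G.natDegree * m) - f m) := by
      have : ∀ j ∈ Finset.range G.natDegree,
          AdjoinRoot.of G (a j - c m j) * AdjoinRoot.root G ^ j =
          AdjoinRoot.of G (a j) * AdjoinRoot.root G ^ j -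
            AdjoinRoot.of G (c m j) * AdjoinRoot.root G ^ j := fun j _ => by
        rw [map_sub, sub_mul]
      rw [Finset.sum_congr rfl this, Finset.sum_sub_distrib, ← hc m]
      ring
    rw [e]
    have hle : m ≤ G.natDegree * m := Nat.le_mul_of_pos_left m he
    refine Ideal.add_mem _ (Ideal.sum_mem _ fun j hj => ?_) (tele _ _ hle)
    apply Ideal.mul_mem_right
    exact Ideal.span_singleton_le_span_singleton.mpr (pow_dvd_pow _ hle)
      (of_mem_span_root_pow hG (ha j (Finset.mem_range.mp hj) m))

end Complete

end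

end Fermat.Agent.S56.H116
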