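import Mathlib
import Fermat.Agent.S56.H116.LiftD1

/-!
# S56, wall FLAT: lifting points along the Eisenstein perturbation

`A` a complete discrete valuation ring of characteristic `0`, `G` Eisenstein of degree `e`,
`B = A[X]/(G)`, `C = A[X]/(G + pX^k)`, `η : B → C/(p Π̃^k)` the perturbation map of `H134.FLD`.
If `e v_A(p) < k (p - 1)` then
* `exists_lift_point`: every point of `H` in `B` of order dividing `p` has a companion point in
  `C`, congruent to `η ∘ x` modulo `Π̃^k` (lifting lemma `exists_unique_lift`);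
* `lift_point_injective`: the companion point determines the point (`dvd_of_perturbHom_mem`:
  `η` is isometric below `Π̃^k`; `point_eq_of_congr`: rigidity in `B`).
-/

set_option autoImplicit false
set_option linter.unusedSectionVars false
set_option linter.style.haveILetI false

namespace Fermat.Agent.S56.H116

open Polynomial IsLocalRing Fermat.Agent.S56.H134.FLD WithConv

noncomputable section


section Isometry

variable {A : Type*} [CommRing A] [IsDomain A] [IsDiscreteValuationRing A]
variable {G : A[X]} (hG : IsEis G)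
include hG

/-- `lam = Π^k` satisfies `lam ^ (p - 1) = p * mu` with `mu ∈ (Π)` as soon as
`e v_A(p) < k (p - 1)`. -/
theorem exists_mu {p k eK : ℕ} (heK : IsDiscreteValuationRing.addVal A (p : A) = eK)
    (hkp : G.natDegree * eK < k * (p - 1)) :
    ∃ mu : AdjoinRoot G, mu ∈ Ideal.span {AdjoinRoot.root G ^ 1} ∧
      (AdjoinRoot.root G ^ k) ^ (p - 1) = (p : AdjoinRoot G) * mu := by
  have hvp : hG.val (p : AdjoinRoot G) = ((G.natDegree * eK : ℕ) : ℕ∞) := by
    have : (p : AdjoinRoot G) = AdjoinRoot.of G (p : A) := (map_natCast _ p).symm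
    rw [this, hG.val_of, heK]
    push_cast
    rw [nsmul_eq_mul]
  have hdvd : (p : AdjoinRoot G) ∣ (AdjoinRoot.root G ^ k) ^ (p - 1) := by
    rw [← hG.val_le_iff_dvd, ← pow_mul, hG.val_root_pow, hvp]
    exact_mod_cast hkp.le
  obtain ⟨mu, hmu⟩ := hdvd
  refine ⟨mu, ?_, hmu⟩
  rw [mem_span_root_pow_iff hG]
  have h1 := congrArg hG.val hmu
  rw [← pow_mul, hG.val_root_pow, hG.val.map_mul, hvp] at h1
  induction hv : hG.val mu using ENat.recTopCoe with
  | top => exact le_top
  | coe n =>
    rw [hv] at h1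
    have h2 : k * (p - 1) = G.natDegree * eK + n := by exact_mod_cast h1
    have : 1 ≤ n := by omega
    exact_mod_cast this

/-- The perturbation map `η : A[X]/(G) → (A[X]/(G + pX^k))/(p Π̃^k)` is isometric below `Π̃^k`:
if `η b` vanishes modulo `Π̃^k` then `Π^k ∣ b`. -/
theorem dvd_of_perturbHom_mem {p k : ℕ} (hpA : (p : A) ∈ maximalIdeal A) (hk0 : 0 < k)
    (hke : k < G.natDegree) (b : AdjoinRoot G)
    (hb : Ideal.Quotient.factor
      (span_natCast_mul_le p (AdjoinRoot.root (perturb G p k) ^ k))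
      (perturbHom G p k b) = 0) :
    AdjoinRoot.root G ^ k ∣ b := by
  have hG' : IsEis (perturb G p k) := isEis_perturb (p := p) hG hpA hk0 hke
  have hdeg : (perturb G p k).natDegree = G.natDegree := natDegree_perturb hke
  obtain ⟨c, rfl⟩ := exists_eq_sum hG b
  have h1 : perturbHom G p k (∑ j ∈ Finset.range G.natDegree,
      AdjoinRoot.of G (c j) * AdjoinRoot.root G ^ j) =
      Ideal.Quotient.mk (perturbIdeal G p k) (∑ j ∈ Finset.range G.natDegree,
        AdjoinRoot.of (perturb G p k) (c j) * AdjoinRoot.root (perturb G p k) ^ j) := by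
    rw [map_sum, map_sum]
    refine Finset.sum_congr rfl fun j _ => ?_
    rw [map_mul, map_pow, perturbHom_root, map_mul, map_pow]
    congr 1
    rw [← AdjoinRoot.algebraMap_eq, AlgHom.commutes, ← AdjoinRoot.algebraMap_eq]
    rfl
  rw [h1] at hb
  have h2 : (∑ j ∈ Finset.range G.natDegree,
      AdjoinRoot.of (perturb G p k) (c j) * AdjoinRoot.root (perturb G p k) ^ j) ∈
      Ideal.span {AdjoinRoot.root (perturb G p k) ^ k} := by
    rw [← Ideal.Quotient.eq_zero_iff_mem]
    exact hb
  rw [mem_span_root_pow_iff hG', ← hdeg, hG'.le_val_sum_iff] at h2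
  rw [hG.pow_dvd_iff_le_val, hG.le_val_sum_iff]
  intro j hj
  have := h2 j (hdeg ▸ hj)
  rw [hdeg] at this
  exact this

end Isometry



section Lift

variable {A : Type*} [CommRing A] [IsDomain A] [IsDiscreteValuationRing A] [CharZero A]
variable {G : A[X]} (hG : IsEis G)
variable {O H : Type*} [CommRing O] [CommRing H] [Bialgebra O H] [Coalgebra.IsCocomm O H]
  [Algebra O A]
include hG

theorem natCast_mul_eq_zero {p : ℕ} (hp0 : p ≠ 0) (s : AdjoinRoot G)
    (hs : (p : AdjoinRoot G) * s = 0) : s = 0 := by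
  have := hG.isDomain
  have hp : (p : AdjoinRoot G) ≠ 0 := by
    have : (p : AdjoinRoot G) = AdjoinRoot.of G (p : A) := (map_natCast _ p).symm
    rw [this]
    intro h0
    have := hG.of_injective (h0.trans (map_zero _).symm)
    exact hp0 (by exact_mod_cast this)
  exact (mul_eq_zero.mp hs).resolve_left hp

theorem root_pow_mul_eq_zero (k : ℕ) (s : AdjoinRoot G)
    (hs : AdjoinRoot.root G ^ k * s = 0) : s = 0 := by
  have := hG.isDomain
  exact (mul_eq_zero.mp hs).resolve_left (pow_ne_zero k hG.root_ne_zero)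

/-- **Rigidity in `B = A[X]/(G)`**: two points of order dividing `p` which are congruent modulo
`Π^k`, `e v_A(p) < k (p - 1)`, coincide. -/
theorem point_eq_of_congr [IsAdicComplete (maximalIdeal A) A] {p k eK : ℕ} (hp : p.Prime)
    (heK : IsDiscreteValuationRing.addVal A (p : A) = eK) (hk0 : 0 < k)
    (hkp : G.natDegree * eK < k * (p - 1))
    {x x' : H →ₐ[O] AdjoinRoot G}
    (hx : (toConv x.toLinearMap : WithConv (H →ₗ[O] AdjoinRoot G)) ^ p = 1)
    (hx' : (toConv x'.toLinearMap : WithConv (H →ₗ[O] AdjoinRoot G)) ^ p = 1)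
    (hc : ∀ h, AdjoinRoot.root G ^ k ∣ x' h - x h) : x' = x := by
  obtain ⟨mu, hmu, hlm⟩ := exists_mu hG heK hkp
  have hlam : AdjoinRoot.root G ^ k ∈ Ideal.span {AdjoinRoot.root G ^ 1} :=
    Ideal.mem_span_singleton.mpr (pow_dvd_pow _ hk0)
  exact algHom_eq_of_congr (completeFiltration_adjoinRoot hG) hp
    (natCast_mul_eq_zero hG hp.ne_zero) hlam hmu (root_pow_mul_eq_zero hG k) hlm hx hx'
    (fun h => Ideal.mem_span_singleton.mpr (hc h))

end Lift

section LiftC

variable {A : Type*} [CommRing A] [IsDomain A] [IsDiscreteValuationRing A] [CharZero A]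
  [IsAdicComplete (maximalIdeal A) A]
variable {G : A[X]} (hG : IsEis G)
variable {O H : Type*} [CommRing O] [CommRing H] [Bialgebra O H] [Coalgebra.IsCocomm O H]
  [Module.Projective O H] [Algebra O A]
include hG

/-- **Lifting along the perturbation**: every point `x` of `H` in `B = A[X]/(G)` of order
dividing `p` has a companion point `x'` in `C = A[X]/(G + pX^k)` of order dividing `p` with
`x' ≡ η ∘ x` modulo `Π̃^k`. -/
theorem exists_lift_point {p k eK : ℕ} (hp : p.Prime) (hpA : (p : A) ∈ maximalIdeal A)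
    (heK : IsDiscreteValuationRing.addVal A (p : A) = eK) (hk0 : 0 < k)
    (hke : k < G.natDegree) (hkp : G.natDegree * eK < k * (p - 1))
    (x : H →ₐ[O] AdjoinRoot G)
    (hx : (toConv x.toLinearMap : WithConv (H →ₗ[O] AdjoinRoot G)) ^ p = 1) :
    ∃ x' : H →ₐ[O] AdjoinRoot (perturb G p k),
      (toConv x'.toLinearMap : WithConv (H →ₗ[O] AdjoinRoot (perturb G p k))) ^ p = 1 ∧
      ∀ h, Ideal.Quotient.mk (Ideal.span {AdjoinRoot.root (perturb G p k) ^ k}) (x' h) =
        Ideal.Quotient.factor (span_natCast_mul_le p (AdjoinRoot.root (perturb G p k) ^ k))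
          (perturbHom G p k (x h)) := by
  have hG' : IsEis (perturb G p k) := isEis_perturb (p := p) hG hpA hk0 hke
  have hdeg : (perturb G p k).natDegree = G.natDegree := natDegree_perturb hke
  obtain ⟨mu, hmu, hlm⟩ := exists_mu hG' (p := p) (k := k) heK (by rw [hdeg]; exact hkp)
  have hlam : AdjoinRoot.root (perturb G p k) ^ k ∈
      Ideal.span {AdjoinRoot.root (perturb G p k) ^ 1} :=
    Ideal.mem_span_singleton.mpr (pow_dvd_pow _ hk0)
  obtain ⟨x', hx', -⟩ := exists_unique_lift (O := O) (H := H)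
    (completeFiltration_adjoinRoot hG') hp
    (natCast_mul_eq_zero hG' hp.ne_zero) hlam hmu (root_pow_mul_eq_zero hG' k) hlm
    (((perturbHom G p k).restrictScalars O).comp x)
    (conv_pow_eq_one_comp ((perturbHom G p k).restrictScalars O) hx)
  exact ⟨x', hx'.1, hx'.2⟩

/-- The companion point determines the point. -/
theorem lift_point_injective {p k eK : ℕ} (hp : p.Prime) (hpA : (p : A) ∈ maximalIdeal A)
    (heK : IsDiscreteValuationRing.addVal A (p : A) = eK) (hk0 : 0 < k)
    (hke : k < G.natDegree) (hkp : G.natDegree * eK < k * (p - 1))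
    {x₁ x₂ : H →ₐ[O] AdjoinRoot G}
    (hx₁ : (toConv x₁.toLinearMap : WithConv (H →ₗ[O] AdjoinRoot G)) ^ p = 1)
    (hx₂ : (toConv x₂.toLinearMap : WithConv (H →ₗ[O] AdjoinRoot G)) ^ p = 1)
    (x' : H →ₐ[O] AdjoinRoot (perturb G p k))
    (h₁ : ∀ h, Ideal.Quotient.mk (Ideal.span {AdjoinRoot.root (perturb G p k) ^ k}) (x' h) =
        Ideal.Quotient.factor (span_natCast_mul_le p (AdjoinRoot.root (perturb G p k) ^ k))
          (perturbHom G p k (x₁ h)))
    (h₂ : ∀ h, Ideal.Quotient.mk (Ideal.span {AdjoinRoot.root (perturb G p k) ^ k}) (x' h) =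
        Ideal.Quotient.factor (span_natCast_mul_le p (AdjoinRoot.root (perturb G p k) ^ k))
          (perturbHom G p k (x₂ h))) :
    x₁ = x₂ := by
  apply point_eq_of_congr hG hp heK hk0 hkp hx₂ hx₁
  intro h
  apply dvd_of_perturbHom_mem hG hpA hk0 hke
  have e2 := (h₁ h).symm.trans (h₂ h)
  have e1 : perturbHom G p k (x₁ h - x₂ h) = perturbHom G p k (x₁ h) - perturbHom G p k (x₂ h) :=
    map_sub _ _ _
  rw [e1]
  exact (map_sub (Ideal.Quotient.factor
    (span_natCast_mul_le p (AdjoinRoot.root (perturb G p k) ^ k))) _ _).trans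
    (sub_eq_zero.mpr e2)

end LiftC



section Descent

/-- **Galois descent to an integrally closed subring.**  `C` an integrally closed domain of
characteristic `0`, embedded by `j` in an algebraically closed field `Ω` which is algebraic over
`C`.  An element of `Ω` which is integral over `C` and fixed by every automorphism of `Ω` fixing
`j(C)` pointwise lies in `j(C)`. -/
theorem mem_range_of_fixed {C Ω : Type*} [CommRing C] [IsDomain C] [IsIntegrallyClosed C]
    [CharZero C] [Field Ω] [IsAlgClosed Ω] [Algebra C Ω] [FaithfulSMul C Ω]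
    [Algebra.IsAlgebraic C Ω] (ω : Ω) (hint : IsIntegral C ω)
    (hfix : ∀ σ : Ω ≃+* Ω, (∀ c : C, σ (algebraMap C Ω c) = algebraMap C Ω c) → σ ω = ω) :
    ω ∈ Set.range (algebraMap C Ω) := by
  letI : Algebra (FractionRing C) Ω := FractionRing.liftAlgebra C Ω
  haveI : IsScalarTower C (FractionRing C) Ω := FractionRing.isScalarTower_liftAlgebra C Ω
  haveI : Algebra.IsAlgebraic (FractionRing C) Ω :=
    ⟨fun x => (IsFractionRing.isAlgebraic_iff C (FractionRing C) Ω).mp
      (Algebra.IsAlgebraic.isAlgebraic x)⟩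
  haveI : IsAlgClosure (FractionRing C) Ω := ⟨inferInstance, inferInstance⟩
  haveI : CharZero (FractionRing C) :=
    charZero_of_injective_algebraMap (FaithfulSMul.algebraMap_injective C (FractionRing C))
  haveI : IsGalois (FractionRing C) Ω := IsAlgClosure.isGalois (FractionRing C) Ω
  have h1 : ω ∈ Set.range (algebraMap (FractionRing C) Ω) := by
    rw [InfiniteGalois.mem_range_algebraMap_iff_fixed]
    intro σ
    apply hfix σ.toRingEquiv
    intro c
    have : algebraMap C Ω c = algebraMap (FractionRing C) Ω (algebraMap C (FractionRing C) c) :=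
      IsScalarTower.algebraMap_apply C (FractionRing C) Ω c
    rw [this]
    exact σ.commutes _
  obtain ⟨φ, hφ⟩ := h1
  have h2 : IsIntegral C φ := by
    rw [← isIntegral_algebraMap_iff (FaithfulSMul.algebraMap_injective (FractionRing C) Ω), hφ]
    exact hint
  obtain ⟨y, hy⟩ := IsIntegrallyClosed.isIntegral_iff.mp h2
  exact ⟨y, by rw [← hφ, ← hy, ← IsScalarTower.algebraMap_apply]⟩

end Descent

end

end Fermat.Agent.S56.H116
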