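import Mathlib
import Fermat.Agent.S56.H116.LiftD3

/-!
# S56, wall FLAT: Theorem D (Fontaine's different bound, `n = 1`), complete abstract form

Glue of the lifting lemma (`H116/LiftConv.lean`) with the Eisenstein perturbation
(`H134/FLD*.lean`).

`A` a complete discrete valuation ring of characteristic `0`, `v_A(p) = e_K > 0`; `G` Eisenstein
of degree `e`, `B = A[X]/(G)`, `Π` its root; `H` a cocommutative `O`-bialgebra, projective as an
`O`-module (`O → A`); `Ω` an algebraically closed field, algebraic over `A`, `ι : B → Ω`;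
`X` a finite set of points `H → B` of convolution order dividing `p` such that
* `hall`: every point `H → Ω` is `ι ∘ x` for some `x ∈ X`;
* `hgen`: an `A`-embedding `B → Ω` agreeing with `ι` on all coordinates `x h` is `ι`.

Then for `0 < k < e`, `p ∤ k`, `e e_K < k (p - 1)`:
* `exists_root_of_points`: `G` has a root in `A[X]/(G + pX^k)`;
* `val_derivative_le_of_points`: `v_B(G'(Π)) ≤ e e_K + k - 1`;
* `derivative_dvd_root_pow_of_points`: `G'(Π) ∣ Π ^ (e e_K + k - 1)`.

For a non-complete pair `(A₀, B₀ = A₀[X]/(G))` apply this to the completion `A` of `A₀`: the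
valuation of `G'(Π)` is the same in `A₀[X]/(G)` and `A[X]/(G)` (`IsEis.le_val_sum_iff`).
-/

set_option autoImplicit false
set_option linter.unusedSectionVars false
set_option linter.style.haveILetI false

namespace Fermat.Agent.S56.H116

open Polynomial IsLocalRing Fermat.Agent.S56.H134.FLD WithConv

noncomputable section


section Main

variable {A : Type*} [CommRing A] [IsDomain A] [IsDiscreteValuationRing A] [CharZero A]
  [IsAdicComplete (maximalIdeal A) A]
variable {G : A[X]} (hG : IsEis G)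
variable {O H : Type*} [CommRing O] [CommRing H] [Bialgebra O H] [Coalgebra.IsCocomm O H]
  [Module.Projective O H] [Algebra O A]
variable {Ω : Type*} [Field Ω] [IsAlgClosed Ω] [Algebra A Ω] [FaithfulSMul A Ω]
  [Algebra.IsAlgebraic A Ω] [Algebra O Ω] [IsScalarTower O A Ω]
include hG

/-- **Theorem D, step (iii).**  If all geometric points of `H` are `B`-valued of order dividing
`p` (`B = A[X]/(G)`) and `B` is generated by their coordinates, then `G` has a root in
`C = A[X]/(G + pX^k)` as soon as `0 < k < e` and `e v_A(p) < k (p - 1)`. -/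
theorem exists_root_of_points {p k eK : ℕ} (hp : p.Prime) (hpA : (p : A) ∈ maximalIdeal A)
    (heK : IsDiscreteValuationRing.addVal A (p : A) = eK) (hk0 : 0 < k)
    (hke : k < G.natDegree) (hkp : G.natDegree * eK < k * (p - 1))
    (X : Set (H →ₐ[O] AdjoinRoot G)) (hXfin : X.Finite)
    (hXp : ∀ x ∈ X, (toConv x.toLinearMap : WithConv (H →ₗ[O] AdjoinRoot G)) ^ p = 1)
    (ι : AdjoinRoot G →ₐ[A] Ω)
    (hall : ∀ y : H →ₐ[O] Ω, ∃ x ∈ X, y = (ι.restrictScalars O).comp x)
    (hgen : ∀ ι' : AdjoinRoot G →ₐ[A] Ω, (∀ x ∈ X, ∀ h, ι' (x h) = ι (x h)) → ι' = ι) :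
    ∃ y : AdjoinRoot (perturb G p k), aeval y G = 0 := by
  classical
  have hG' : IsEis (perturb G p k) := isEis_perturb (p := p) hG hpA hk0 hke
  haveI := hG'.isDomain
  haveI := hG'.isDiscreteValuationRing
  haveI := hG'.isIntegral
  -- a root of the perturbed polynomial in `Ω`
  obtain ⟨θ, hθ⟩ := IsAlgClosed.exists_aeval_eq_zero Ω (perturb G p k) (by
    rw [Polynomial.degree_eq_natDegree hG'.monic.ne_zero]
    exact_mod_cast hG'.pos.ne')
  obtain ⟨j, hjdef⟩ : ∃ j : AdjoinRoot (perturb G p k) →ₐ[A] Ω, j = j := ⟨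
    AdjoinRoot.liftAlgHom (perturb G p k) (Algebra.ofId A Ω) θ hθ, rfl⟩
  have hj : Function.Injective j := by
    rw [← RingHom.coe_coe, RingHom.injective_iff_ker_eq_bot]
    apply Ideal.eq_bot_of_comap_eq_bot (R := A)
    rw [eq_bot_iff]
    intro a ha
    rw [Ideal.mem_comap, RingHom.mem_ker] at ha
    have h1 : algebraMap A Ω a = 0 := by
      rw [← ha]
      exact (j.commutes a).symm
    rw [Ideal.mem_bot]
    exact FaithfulSMul.algebraMap_injective A Ω (h1.trans (map_zero _).symm)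
  letI : Algebra (AdjoinRoot (perturb G p k)) Ω := j.toRingHom.toAlgebra
  have halg : ∀ c, algebraMap (AdjoinRoot (perturb G p k)) Ω c = j c := fun _ => rfl
  haveI : FaithfulSMul (AdjoinRoot (perturb G p k)) Ω :=
    (faithfulSMul_iff_algebraMap_injective _ _).mpr hj
  haveI : IsScalarTower A (AdjoinRoot (perturb G p k)) Ω :=
    IsScalarTower.of_algebraMap_eq fun a => (j.commutes a).symm
  haveI : Algebra.IsAlgebraic (AdjoinRoot (perturb G p k)) Ω :=
    Algebra.IsAlgebraic.extendScalars (R := A) hG'.of_injective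
  haveI : CharZero (AdjoinRoot (perturb G p k)) :=
    charZero_of_injective_algebraMap (R := A) hG'.of_injective
  -- the companion points
  have hlift : ∀ x : X, ∃ x' : H →ₐ[O] AdjoinRoot (perturb G p k),
      (toConv x'.toLinearMap : WithConv (H →ₗ[O] AdjoinRoot (perturb G p k))) ^ p = 1 ∧
      ∀ h, Ideal.Quotient.mk (Ideal.span {AdjoinRoot.root (perturb G p k) ^ k}) (x' h) =
        Ideal.Quotient.factor (span_natCast_mul_le p (AdjoinRoot.root (perturb G p k) ^ k))
          (perturbHom G p k (x.1 h)) := fun x =>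
    exists_lift_point hG hp hpA heK hk0 hke hkp x.1 (hXp x.1 x.2)
  choose L hL1 hL2 using hlift
  obtain ⟨Φ, hΦdef⟩ : ∃ Φ : X → (H →ₐ[O] Ω), ∀ x h, Φ x h = j (L x h) :=
    ⟨fun x => (j.restrictScalars O).comp (L x), fun _ _ => rfl⟩
  obtain ⟨Ψ, hΨdef⟩ : ∃ Ψ : X → (H →ₐ[O] Ω), ∀ x, Ψ x = (ι.restrictScalars O).comp x.1 :=
    ⟨fun x => (ι.restrictScalars O).comp x.1, fun _ => rfl⟩
  have hΨ : Function.Surjective Ψ := fun y => by
    obtain ⟨x, hx, e⟩ := hall y
    exact ⟨⟨x, hx⟩, by rw [hΨdef, e]⟩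
  have hΦ : Function.Injective Φ := by
    intro x₁ x₂ e
    have e' : L x₁ = L x₂ := by
      apply AlgHom.ext
      intro h
      apply hj
      rw [← hΦdef, ← hΦdef, e]
    apply Subtype.ext
    exact lift_point_injective hG hp hpA heK hk0 hke hkp (hXp _ x₁.2) (hXp _ x₂.2) (L x₁)
      (hL2 x₁) (by rw [e']; exact hL2 x₂)
  haveI : Finite X := hXfin.to_subtype
  haveI : Finite (H →ₐ[O] Ω) := Finite.of_surjective Ψ hΨ
  have hcard : Nat.card (H →ₐ[O] Ω) ≤ Nat.card X := Nat.card_le_card_of_surjective Ψ hΨ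
  have hbij := hΦ.bijective_of_nat_card_le hcard
  have key : ∀ x ∈ X, ∀ h, ι (x h) ∈ Set.range j := by
    intro x hx h
    obtain ⟨x₂, hx₂⟩ := hbij.2 (Ψ ⟨x, hx⟩)
    refine ⟨L x₂ h, ?_⟩
    rw [← hΦdef, hx₂, hΨdef]
    rfl
  -- Galois descent for `ω = ι Π`
  have hint : IsIntegral (AdjoinRoot (perturb G p k)) (ι (AdjoinRoot.root G)) :=
    ((AdjoinRoot.isIntegral_root' hG.monic).map ι).tower_top
  have hfix : ∀ σ : Ω ≃+* Ω, (∀ c : AdjoinRoot (perturb G p k),
      σ (algebraMap (AdjoinRoot (perturb G p k)) Ω c) =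
        algebraMap (AdjoinRoot (perturb G p k)) Ω c) →
      σ (ι (AdjoinRoot.root G)) = ι (AdjoinRoot.root G) := by
    intro σ hσ
    have hσA : ∀ a : A, σ (algebraMap A Ω a) = algebraMap A Ω a := fun a => by
      rw [IsScalarTower.algebraMap_apply A (AdjoinRoot (perturb G p k)) Ω]
      exact hσ _
    obtain ⟨ι', hι'⟩ : ∃ ι' : AdjoinRoot G →ₐ[A] Ω, ∀ b, ι' b = σ (ι b) :=
      ⟨{ toRingHom := σ.toRingHom.comp ι.toRingHom
         commutes' := fun a => by
           show σ (ι (algebraMap A (AdjoinRoot G) a)) = algebraMap A Ω a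
           rw [ι.commutes, hσA] }, fun _ => rfl⟩
    have h1 : ι' = ι := by
      apply hgen
      intro x hx h
      obtain ⟨c, hc⟩ := key x hx h
      rw [hι', ← hc]
      exact hσ c
    rw [← hι', h1]
  obtain ⟨y, hy⟩ := mem_range_of_fixed (C := AdjoinRoot (perturb G p k)) _ hint hfix
  refine ⟨y, ?_⟩
  apply hj
  rw [map_zero, ← Polynomial.aeval_algHom_apply, ← halg, hy, Polynomial.aeval_algHom_apply,
    AdjoinRoot.aeval_eq, AdjoinRoot.mk_self, map_zero]

/-- **Theorem D (complete abstract form).**  `A` a complete discrete valuation ring of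
characteristic `0` with `v_A(p) = e_K > 0`, `G` Eisenstein of degree `e`, `B = A[X]/(G)`.
Suppose that all geometric points of the cocommutative bialgebra `H` are `B`-valued, of order
dividing `p`, and that `B` is generated by their coordinates.  Then for every `k` with
`0 < k < e`, `p ∤ k`, `e e_K < k (p - 1)`:   `v_B(G'(Π)) ≤ e e_K + k - 1`. -/
theorem val_derivative_le_of_points {p k eK : ℕ} (hp : p.Prime)
    (hpA : (p : A) ∈ maximalIdeal A)
    (heK : IsDiscreteValuationRing.addVal A (p : A) = eK) (hk0 : 0 < k)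
    (hke : k < G.natDegree) (hpk : ¬ p ∣ k) (hkp : G.natDegree * eK < k * (p - 1))
    (X : Set (H →ₐ[O] AdjoinRoot G)) (hXfin : X.Finite)
    (hXp : ∀ x ∈ X, (toConv x.toLinearMap : WithConv (H →ₗ[O] AdjoinRoot G)) ^ p = 1)
    (ι : AdjoinRoot G →ₐ[A] Ω)
    (hall : ∀ y : H →ₐ[O] Ω, ∃ x ∈ X, y = (ι.restrictScalars O).comp x)
    (hgen : ∀ ι' : AdjoinRoot G →ₐ[A] Ω, (∀ x ∈ X, ∀ h, ι' (x h) = ι (x h)) → ι' = ι) :
    hG.val (aeval (AdjoinRoot.root G) (derivative G)) ≤
      ((G.natDegree * eK + (k - 1) : ℕ) : ℕ∞) := by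
  obtain ⟨y, hy⟩ := exists_root_of_points hG hp hpA heK hk0 hke hkp X hXfin hXp ι hall hgen
  exact val_derivative_le_of_root hG hp hpA heK hk0 hke hpk y hy

/-- The same bound as a divisibility: `G'(Π) ∣ Π ^ (e e_K + k - 1)`. -/
theorem derivative_dvd_root_pow_of_points {p k eK : ℕ} (hp : p.Prime)
    (hpA : (p : A) ∈ maximalIdeal A)
    (heK : IsDiscreteValuationRing.addVal A (p : A) = eK) (hk0 : 0 < k)
    (hke : k < G.natDegree) (hpk : ¬ p ∣ k) (hkp : G.natDegree * eK < k * (p - 1))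
    (X : Set (H →ₐ[O] AdjoinRoot G)) (hXfin : X.Finite)
    (hXp : ∀ x ∈ X, (toConv x.toLinearMap : WithConv (H →ₗ[O] AdjoinRoot G)) ^ p = 1)
    (ι : AdjoinRoot G →ₐ[A] Ω)
    (hall : ∀ y : H →ₐ[O] Ω, ∃ x ∈ X, y = (ι.restrictScalars O).comp x)
    (hgen : ∀ ι' : AdjoinRoot G →ₐ[A] Ω, (∀ x ∈ X, ∀ h, ι' (x h) = ι (x h)) → ι' = ι) :
    aeval (AdjoinRoot.root G) (derivative G) ∣
      AdjoinRoot.root G ^ (G.natDegree * eK + (k - 1)) := by
  rw [← hG.val_le_iff_dvd, hG.val_root_pow]
  exact val_derivative_le_of_points hG hp hpA heK hk0 hke hpk hkp X hXfin hXp ι hall hgen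

end Main

end

end Fermat.Agent.S56.H116
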